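import Fermat.Agent.Roth.Field.UnitEquation
import Mathlib.RingTheory.DedekindDomain.FiniteAdeleRing

/-!
# `S`-integers and the ratios in three-term relations of `S`-units

The finite sets of primes attached to an element, the primes over a finite set in an extension,
and the finiteness of `x / z` in `a x + b y = c z` with `S`-units `x`, `y`, `z`.
-/

set_option autoImplicit false

noncomputable section

namespace FA.Roth

open Finset NumberField IsDedekindDomain

variable {K : Type*} [Field K] [NumberField K]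

theorem finite_valuation_ne_one {x : K} (hx : x ≠ 0) :
    {v : HeightOneSpectrum (𝓞 K) | v.valuation K x ≠ 1}.Finite := by
  refine ((HeightOneSpectrum.Support.finite (𝓞 K) x).union
    (HeightOneSpectrum.Support.finite (𝓞 K) x⁻¹)).subset fun v hv => ?_
  rcases lt_or_gt_of_ne (hv : v.valuation K x ≠ 1) with h | h
  · refine Or.inr ?_
    show 1 < v.valuation K x⁻¹
    rw [map_inv₀]
    exact (one_lt_inv₀ (zero_lt_iff.2 ((Valuation.ne_zero_iff _).2 hx))).2 h
  · exact Or.inl h

/-- The product of finitely many elements of valuation at most `1` is a unit only if they are. -/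
theorem valuation_eq_one_of_prod {ι : Type*} {s : Finset ι} {v : HeightOneSpectrum (𝓞 K)}
    {f : ι → K} (hf : ∀ i ∈ s, v.valuation K (f i) ≤ 1)
    (h : v.valuation K (∏ i ∈ s, f i) = 1) {i : ι} (hi : i ∈ s) : v.valuation K (f i) = 1 := by
  classical
  rw [← mul_prod_erase s f hi, map_mul] at h
  refine le_antisymm (hf i hi) (h ▸ mul_le_of_le_one_right' ?_)
  rw [map_prod]
  exact Finset.prod_le_one' fun j hj => hf j (mem_of_mem_erase hj)

/-- The `S`-unit given by an element of valuation `1` outside `S`. -/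
theorem exists_sunit {S : Set (HeightOneSpectrum (𝓞 K))} {x : K} (hx : x ≠ 0)
    (h : ∀ v ∉ S, v.valuation K x = 1) : ∃ u : S.unit K, ((u : Kˣ) : K) = x :=
  ⟨⟨Units.mk0 x hx, h⟩, rfl⟩

/-- The ratios `x / z` in `a x + b y = c z` are finite in number. -/
theorem finite_sunit_ratios {S : Set (HeightOneSpectrum (𝓞 K))} (hS : S.Finite) {a b c : K}
    (ha : a ≠ 0) (hb : b ≠ 0) (hc : c ≠ 0) :
    {r : K | ∃ x y z : S.unit K, a * ((x : Kˣ) : K) + b * ((y : Kˣ) : K) = c * ((z : Kˣ) : K) ∧
      r = ((x : Kˣ) : K) / ((z : Kˣ) : K)}.Finite := by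
  refine ((finite_sunit_equation hS ha hb hc).image
    fun p : S.unit K × S.unit K => ((p.1 : Kˣ) : K)).subset ?_
  rintro r ⟨x, y, z, h, rfl⟩
  refine ⟨(x * z⁻¹, y * z⁻¹), ?_, by simp [div_eq_mul_inv]⟩
  have hz := Units.ne_zero (z : Kˣ)
  show a * _ + b * _ = c
  simp only [Subgroup.coe_mul, Subgroup.coe_inv, Units.val_mul, Units.val_inv_eq_inv_val]
  field_simp
  linear_combination h

variable {L : Type*} [Field L] [NumberField L] [Algebra K L]

/-- The primes over a set of primes. -/
def overPrimes (S : Set (HeightOneSpectrum (𝓞 K))) : Set (HeightOneSpectrum (𝓞 L)) :=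
  HeightOneSpectrum.under (𝓞 K) ⁻¹' S

omit [NumberField K] in
theorem overPrimes_finite {S : Set (HeightOneSpectrum (𝓞 K))} (hS : S.Finite) :
    (overPrimes S : Set (HeightOneSpectrum (𝓞 L))).Finite := by
  refine (hS.biUnion fun v _ => Ideal.finite_factors (I := v.asIdeal.map (algebraMap (𝓞 K) (𝓞 L)))
    ?_).subset fun w hw => Set.mem_biUnion hw ?_
  · exact fun h => v.ne_bot ((Ideal.map_eq_bot_iff_of_injective
      (FaithfulSMul.algebraMap_injective (𝓞 K) (𝓞 L))).1 h)
  · exact Ideal.dvd_iff_le.2 (Ideal.map_le_iff_le_comap.2 le_rfl)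

theorem valuation_algebraMap_le_one {S : Set (HeightOneSpectrum (𝓞 K))}
    {w : HeightOneSpectrum (𝓞 L)} (hw : w ∉ overPrimes S) {x : K}
    (hx : ∀ v ∉ S, v.valuation K x ≤ 1) : w.valuation L (algebraMap K L x) ≤ 1 := by
  have : w.asIdeal.LiesOver (HeightOneSpectrum.under (𝓞 K) w).asIdeal := ⟨rfl⟩
  rw [← HeightOneSpectrum.valuation_liesOver L (HeightOneSpectrum.under (𝓞 K) w) w x]
  exact pow_le_one₀ zero_le (hx _ hw)

end FA.Roth

end
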