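import Fermat.Agent.Roth.Field.Height
import Mathlib.FieldTheory.IsAlgClosed.Basic
import Mathlib.NumberTheory.RamificationInertia.Valuation
import Mathlib.RingTheory.DedekindDomain.SInteger

/-!
# Places and their extensions

An `S`-unit of height `H` is at least `H ^ (1 / 2 N)` at one of the `N` places in `S` or at
infinity, and every finite place of a number field extends to a norm on any finite extension.
-/

set_option autoImplicit false

noncomputable section

namespace FA.Roth

open Finset NumberField IsDedekindDomain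
open scoped NNReal

/-- The distance to the nearest `m`-th root of `β`. -/
theorem exists_root_pow_near {M : Type*} [NormedField M] [CharZero M] {β : M} (hβ : β ≠ 0)
    {m : ℕ} (hm : 0 < m) (hsplit : (Polynomial.X ^ m - Polynomial.C β).Splits) :
    ∃ C : ℝ, 0 < C ∧ ∀ t : M, ∃ z : M, z ^ m = β ∧ ‖t - z‖ ≤ C * ‖t ^ m - β‖ := by
  classical
  set g : Polynomial M := Polynomial.X ^ m - Polynomial.C β with hg
  have hmon : g.Monic := Polynomial.monic_X_pow_sub_C β hm.ne'
  set R := g.roots.toFinset with hR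
  have hnd : g.roots.Nodup :=
    Polynomial.nodup_roots (Polynomial.separable_X_pow_sub_C β (by exact_mod_cast hm.ne') hβ)
  have hmem : ∀ z, z ∈ R ↔ z ^ m = β := fun z => by
    rw [hR, Multiset.mem_toFinset, Polynomial.mem_roots hmon.ne_zero, Polynomial.IsRoot.def, hg]
    simp [sub_eq_zero]
  have hprod : ∀ t : M, ‖t ^ m - β‖ = ∏ z ∈ R, ‖t - z‖ := fun t => by
    rw [← norm_prod, hR, Finset.prod_eq_multiset_prod, Multiset.toFinset_val, hnd.dedup]
    congr 1
    have h := congrArg (Polynomial.eval t) hsplit.eq_prod_roots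
    rw [hmon.leadingCoeff, Polynomial.C_1, one_mul, Polynomial.eval_multiset_prod,
      Multiset.map_map, hg] at h
    simpa using h
  let P : M → ℝ := fun w => ∏ z ∈ R.erase w, ‖z - w‖ / 2
  have hP : ∀ w, 0 < P w := fun w => prod_pos fun z hz =>
    div_pos (norm_pos_iff.2 (sub_ne_zero.2 (mem_erase.1 hz).1)) two_pos
  have hRne : R.Nonempty := by
    obtain ⟨z, hz⟩ := hsplit.exists_eval_eq_zero (by
      rw [Polynomial.degree_X_pow_sub_C hm]
      exact_mod_cast hm.ne')
    exact ⟨z, (hmem z).2 (sub_eq_zero.1 (by simpa [hg] using hz))⟩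
  refine ⟨∑ w ∈ R, (P w)⁻¹, sum_pos (fun w _ => inv_pos.2 (hP w)) hRne, fun t => ?_⟩
  obtain ⟨w, hw, hmin⟩ := R.exists_min_image (fun z => ‖t - z‖) hRne
  refine ⟨w, (hmem w).1 hw, ?_⟩
  have h1 : P w * ‖t - w‖ ≤ ‖t ^ m - β‖ := by
    rw [hprod, ← mul_prod_erase R (fun z => ‖t - z‖) hw, mul_comm]
    refine mul_le_mul_of_nonneg_left (prod_le_prod (fun z _ => by positivity) fun z hz => ?_)
      (norm_nonneg _)
    have h2 := hmin z (mem_of_mem_erase hz)
    have h3 := norm_sub_le_norm_sub_add_norm_sub z t w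
    rw [norm_sub_rev z t] at h3
    linarith
  calc ‖t - w‖ ≤ (P w)⁻¹ * ‖t ^ m - β‖ := by
        rw [inv_mul_eq_div, le_div_iff₀ (hP w)]; linarith
    _ ≤ _ := mul_le_mul_of_nonneg_right
        (single_le_sum (f := fun w => (P w)⁻¹) (fun w _ => (inv_pos.2 (hP w)).le) hw)
        (norm_nonneg _)

variable {K : Type*} [Field K] [NumberField K]

theorem finitePlace_eq_one {v : HeightOneSpectrum (𝓞 K)} {x : K}
    (h : v.valuation K x = 1) : FinitePlace.mk v x = 1 := by
  rw [FinitePlace.mk_apply, FinitePlace.norm_embedding', h]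
  simp

/-- The value at one of the places in `S` or at infinity. -/
def placeVal (S : Set (HeightOneSpectrum (𝓞 K))) (p : InfinitePlace K ⊕ S) (x : K) : ℝ :=
  Sum.elim (fun w => w x) (fun v => FinitePlace.mk v.1 x) p

/-- An `S`-unit is large at one of its places. -/
theorem exists_large_place {S : Set (HeightOneSpectrum (𝓞 K))} (hS : S.Finite) (u : S.unit K) :
    Height.mulHeight₁ ((u : Kˣ) : K) ≤ 1 ∨ ∃ p, Height.mulHeight₁ ((u : Kˣ) : K) ≤
      placeVal S p ((u : Kˣ) : K) ^ (2 * (Fintype.card (InfinitePlace K) + hS.toFinset.card)) := by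
  classical
  set x := ((u : Kˣ) : K)
  have : Fintype S := hS.fintype
  obtain ⟨p, -, hp⟩ := (univ : Finset (InfinitePlace K ⊕ S)).exists_max_image
    (fun p => placeVal S p x) univ_nonempty
  have hfin : ∏ᶠ w : FinitePlace K, max (w x) 1 =
      ∏ v ∈ hS.toFinset, max (FinitePlace.mk v x) 1 := by
    rw [← finprod_comp_equiv FinitePlace.equivHeightOneSpectrum.symm]
    refine finprod_eq_prod_of_mulSupport_subset _ fun v hv => ?_
    rw [Set.Finite.coe_toFinset]
    by_contra h
    refine hv ?_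
    show max (FinitePlace.mk v x) 1 = 1
    rw [finitePlace_eq_one (S.unit_valuation_eq_one K u h), max_self]
  rw [NumberField.mulHeight₁_eq, hfin]
  set W := max (placeVal S p x) 1 with hW
  have hW1 : 1 ≤ W := le_max_right _ _
  have hle : (∏ w : InfinitePlace K, max (w x) 1 ^ w.mult) *
      ∏ v ∈ hS.toFinset, max (FinitePlace.mk v x) 1 ≤
      W ^ (2 * (Fintype.card (InfinitePlace K) + hS.toFinset.card)) := by
    rw [mul_add, pow_add]
    refine mul_le_mul ?_ ?_ (prod_nonneg fun v _ => by positivity) (by positivity)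
    · rw [pow_mul, ← Finset.card_univ, ← prod_const]
      refine prod_le_prod (fun w _ => by positivity) fun w _ => ?_
      refine (pow_le_pow_left₀ (by positivity)
        (max_le_max_right 1 (hp (Sum.inl w) (mem_univ _))) _).trans
        (pow_le_pow_right₀ hW1 ?_)
      rcases w.isReal_or_isComplex with h | h <;>
        simp [InfinitePlace.mult, h, InfinitePlace.not_isReal_iff_isComplex.2 _]
    · rw [pow_mul, ← prod_const]
      exact prod_le_prod (fun v _ => by positivity) fun v hv =>
        (max_le_max_right 1 (hp (Sum.inr ⟨v, hS.mem_toFinset.1 hv⟩) (mem_univ _))).trans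
          (le_self_pow₀ hW1 two_ne_zero)
  rcases le_total (placeVal S p x) 1 with h | h
  · refine Or.inl (hle.trans (le_of_eq ?_))
    rw [hW, max_eq_right h, one_pow]
  · refine Or.inr ⟨p, hle.trans (le_of_eq ?_)⟩
    rw [hW, max_eq_left h]

/-- **Extension of a finite place** to a finite extension. -/
theorem exists_place_extension (v : HeightOneSpectrum (𝓞 K)) (L : Type*) [Field L] [NumberField L]
    [Algebra K L] :
    ∃ w : AbsoluteValue L ℝ, ∀ y : K, w (algebraMap K L y) = FinitePlace.mk v y := by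
  obtain ⟨Q, hQ, hover⟩ :=
    Ideal.exists_maximal_ideal_liesOver_of_isIntegral (S := 𝓞 L) v.asIdeal
  have hQ0 : Q ≠ ⊥ := Ideal.ne_bot_of_liesOver_of_ne_bot v.ne_bot Q
  let w : HeightOneSpectrum (𝓞 L) := ⟨Q, hQ.isPrime, hQ0⟩
  have : w.asIdeal.LiesOver v.asIdeal := hover
  set e := v.asIdeal.ramificationIdx' w.asIdeal with he
  have he0 : e ≠ 0 := Ideal.IsDedekindDomain.ramificationIdx'_ne_zero_of_liesOver w.asIdeal v.ne_bot
  set b : ℝ≥0 := (Ideal.absNorm v.asIdeal : ℝ≥0) ^ (1 / (e : ℝ)) with hb_def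
  have hb : 1 < b := NNReal.one_lt_rpow (HeightOneSpectrum.one_lt_absNorm_nnreal v) (by positivity)
  have hbe : b ^ e = (Ideal.absNorm v.asIdeal : ℝ≥0) := by
    rw [hb_def, ← NNReal.rpow_natCast, ← NNReal.rpow_mul,
      one_div_mul_cancel (by exact_mod_cast he0),
      NNReal.rpow_one]
  refine ⟨w.adicAbv hb, fun y => ?_⟩
  rw [FinitePlace.mk_apply, FinitePlace.norm_embedding']
  show ((WithZeroMulInt.toNNReal (ne_zero_of_lt hb) (w.valuation L (algebraMap K L y)) : ℝ≥0) : ℝ)
    = _
  rw [← HeightOneSpectrum.valuation_liesOver L v w y, map_pow, ← he]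
  congr 1
  rcases eq_or_ne (v.valuation K y) 0 with h0 | h0
  · rw [h0, map_zero, map_zero, zero_pow he0]
  · rw [WithZeroMulInt.toNNReal_neg_apply _ h0, WithZeroMulInt.toNNReal_neg_apply _ h0,
      ← hbe, ← zpow_natCast b e, ← zpow_mul, ← zpow_natCast, ← zpow_mul, mul_comm]

end FA.Roth

end
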