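import Mathlib.NumberTheory.NumberField.ClassNumber
import Mathlib.NumberTheory.NumberField.Units.DirichletTheorem
import Mathlib.RingTheory.DedekindDomain.Factorization
import Mathlib.RingTheory.DedekindDomain.SInteger
import Mathlib.RingTheory.Ideal.Norm.AbsNorm

/-!
# Finiteness of the Selmer group `K(T, m)`

The nonzero elements of a number field whose valuations outside a finite set of primes are
divisible by `m` form finitely many classes modulo `m`-th powers: their ideal is an `m`-th power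
up to an ideal with bounded norm, the class group is finite and so are the units modulo `m`-th
powers. In particular the `S`-units form finitely many classes modulo `m`-th powers of `S`-units.
-/

set_option autoImplicit false

noncomputable section

namespace FA.Roth

open Finset NumberField IsDedekindDomain
open scoped nonZeroDivisors

variable {K : Type*} [Field K] [NumberField K]

/-- Finitely many classes of units modulo `m`-th powers. -/
theorem exists_unit_classes {m : ℕ} (hm : 0 < m) : ∃ Γ : Finset (𝓞 K)ˣ,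
    ∀ u : (𝓞 K)ˣ, ∃ γ ∈ Γ, ∃ z : (𝓞 K)ˣ, u = γ * z ^ m := by
  classical
  have : Fintype (Units.torsion K) := Fintype.ofFinite _
  refine ⟨(univ : Finset (Units.torsion K × (Fin (Units.rank K) → Fin m))).image
    fun p => (p.1 : (𝓞 K)ˣ) * ∏ i, Units.fundSystem K i ^ ((p.2 i : ℕ) : ℤ), fun u => ?_⟩
  obtain ⟨⟨ζ, e⟩, hu, -⟩ := Units.exist_unique_eq_mul_prod K u
  have hm' : (0 : ℤ) < m := by exact_mod_cast hm
  set r : Fin (Units.rank K) → Fin m := fun i => ⟨(e i % m).toNat, by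
    have := Int.emod_lt_of_pos (e i) hm'
    omega⟩ with hr
  refine ⟨_, mem_image.2 ⟨(ζ, r), mem_univ _, rfl⟩, ∏ i, Units.fundSystem K i ^ (e i / m), ?_⟩
  rw [hu, mul_assoc, ← prod_pow, ← prod_mul_distrib]
  congr 1
  refine prod_congr rfl fun i _ => ?_
  rw [← zpow_natCast, ← zpow_mul, ← zpow_add]
  congr 1
  show e i = ((e i % m).toNat : ℤ) + e i / m * m
  rw [Int.toNat_of_nonneg (Int.emod_nonneg _ hm'.ne'), add_comm, Int.ediv_mul_add_emod]

/-- The ideals containing a nonzero element are finite in number. -/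
theorem finite_ideals_mem {e : 𝓞 K} (he : e ≠ 0) : {I : Ideal (𝓞 K) | e ∈ I}.Finite := by
  refine (Ideal.finite_setOfPred_absNorm_le (Ideal.absNorm (Ideal.span {e}))).subset
    fun I hI => ?_
  refine Nat.le_of_dvd (Nat.pos_of_ne_zero fun h => ?_)
    (Ideal.absNorm_dvd_absNorm_of_le ((Ideal.span_singleton_le_iff_mem _).2 hI))
  exact he (Ideal.span_singleton_eq_bot.1 (Ideal.absNorm_eq_zero_iff.1 h))

/-- Ideals which are `m`-th powers up to a bounded ideal give finitely many classes of elements. -/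
theorem exists_classes_of_ideal {m : ℕ} (hm : 0 < m) {e : 𝓞 K} (he : e ≠ 0) :
    ∃ Γ : Finset K, (∀ γ ∈ Γ, γ ≠ 0) ∧ ∀ (z : 𝓞 K) (A J : Ideal (𝓞 K)), z ≠ 0 → e ∈ A →
      Ideal.span {z} = A * J ^ m → ∃ γ ∈ Γ, ∃ ξ : 𝓞 K, (z : K) = γ * (ξ : K) ^ m := by
  classical
  obtain ⟨U, hU⟩ := exists_unit_classes (K := K) hm
  let rep : ClassGroup (𝓞 K) → (Ideal (𝓞 K))⁰ := Function.surjInv ClassGroup.mk0_surjective
  let gen : Ideal (𝓞 K) → 𝓞 K := fun P =>
    if h : ∃ g, g ≠ 0 ∧ Ideal.span {g} = P then h.choose else 1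
  have hgen : ∀ P, gen P ≠ 0 := fun P => by
    show dite _ _ _ ≠ (0 : 𝓞 K)
    split_ifs with h
    · exact h.choose_spec.1
    · exact one_ne_zero
  refine ⟨((finite_ideals_mem he).toFinset ×ˢ (univ : Finset (ClassGroup (𝓞 K))) ×ˢ U).image
    fun q => (gen (q.1 * (rep q.2.1 : Ideal (𝓞 K)) ^ m) : K) * (q.2.2 : K) /
      (gen (q.1 * (rep q.2.1 : Ideal (𝓞 K)) ^ m) : K) ^ m, fun γ hγ => ?_, ?_⟩
  · obtain ⟨q, -, rfl⟩ := mem_image.1 hγ
    have h := RingOfIntegers.coe_ne_zero_iff.2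
      (hgen (q.1 * (rep q.2.1 : Ideal (𝓞 K)) ^ m))
    exact div_ne_zero (mul_ne_zero h (Units.coe_ne_zero _)) (pow_ne_zero m h)
  intro z A J hz hA hzJ
  have hJ : J ≠ ⊥ := fun h => hz (Ideal.span_singleton_eq_bot.1 (by
    rw [hzJ, h, ← Ideal.zero_eq_bot, zero_pow hm.ne', mul_zero]))
  set J' : (Ideal (𝓞 K))⁰ := ⟨J, mem_nonZeroDivisors_of_ne_zero hJ⟩
  set k := ClassGroup.mk0 J'
  obtain ⟨α, β, hα, hβ, hαβ⟩ := ClassGroup.mk0_eq_mk0_iff.1
    (show ClassGroup.mk0 J' = ClassGroup.mk0 (rep k) from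
      (Function.surjInv_eq ClassGroup.mk0_surjective k).symm)
  set P := A * (rep k : Ideal (𝓞 K)) ^ m with hP
  have hsp : Ideal.span {α ^ m * z} = Ideal.span {β ^ m} * P := by
    rw [← Ideal.span_singleton_mul_span_singleton, hzJ, mul_left_comm, ← Ideal.span_singleton_pow,
      ← mul_pow, show Ideal.span {α} * J = Ideal.span {β} * (rep k : Ideal (𝓞 K)) from hαβ,
      mul_pow, Ideal.span_singleton_pow, hP, mul_left_comm]
  obtain ⟨q, hq⟩ := Ideal.span_singleton_le_span_singleton.1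
    (show Ideal.span {α ^ m * z} ≤ Ideal.span {β ^ m} from hsp ▸ Ideal.mul_le_left)
  have hPq : Ideal.span {q} = P := by
    refine mul_left_cancel₀ (a := Ideal.span {β ^ m})
      (fun h => pow_ne_zero m hβ (Ideal.span_singleton_eq_bot.1 h)) ?_
    rw [← hsp, hq, Ideal.span_singleton_mul_span_singleton]
  have hq0 : q ≠ 0 := fun h => mul_ne_zero (pow_ne_zero m hα) hz (by rw [hq, h, mul_zero])
  have hex : ∃ g, g ≠ 0 ∧ Ideal.span {g} = P := ⟨q, hq0, hPq⟩
  set g := gen P with hg_def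
  have hg : Ideal.span {g} = P := by
    have e : gen P = hex.choose := dif_pos hex
    rw [hg_def, e]
    exact hex.choose_spec.2
  obtain ⟨u, hu⟩ := Ideal.span_singleton_eq_span_singleton.1 (hg.trans hPq.symm)
  obtain ⟨γ, hγ, w, hw⟩ := hU u
  have hg0 : (g : K) ≠ 0 := RingOfIntegers.coe_ne_zero_iff.2 (hgen P)
  have hα0 : (α : K) ≠ 0 := RingOfIntegers.coe_ne_zero_iff.2 hα
  set ξ : K := (g : K) * β * (w : K) / α with hξ
  have hzγ : (z : K) = (g : K) * (γ : K) / (g : K) ^ m * ξ ^ m := by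
    have h := congrArg (algebraMap (𝓞 K) K) hq
    rw [← hu, hw, Units.val_mul, Units.val_pow_eq_pow_val] at h
    simp only [map_mul, map_pow] at h
    rw [hξ, div_pow, mul_pow, mul_pow]
    field_simp
    linear_combination h
  have hint : IsIntegral ℤ ξ := by
    refine IsIntegral.of_pow hm ?_
    have e : ξ ^ m = ((g ^ (m - 1) * z * (γ⁻¹ : (𝓞 K)ˣ) : 𝓞 K) : K) := by
      have h1 : (g : K) ^ m = (g : K) ^ (m - 1) * g := by
        rw [← pow_succ, show m - 1 + 1 = m by omega]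
      simp only [RingOfIntegers.coe_eq_algebraMap, map_mul, map_pow, map_units_inv] at hzγ h1 hg0 ⊢
      rw [hzγ, h1]
      field_simp
    rw [e]
    exact RingOfIntegers.isIntegral_coe _
  exact ⟨_, mem_image.2 ⟨(A, k, γ), by simp [hA, hγ], rfl⟩, ⟨ξ, hint⟩, hzγ⟩

/-- An ideal with exponents divisible by `m` outside `T` is an `m`-th power up to an ideal
containing a given element. -/
theorem exists_power_ideal {m : ℕ} (hm : 0 < m) {T : Set (HeightOneSpectrum (𝓞 K))}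
    (hT : T.Finite) :
    ∃ e : 𝓞 K, e ≠ 0 ∧ ∀ I : Ideal (𝓞 K), I ≠ ⊥ →
      (∀ v ∉ T, m ∣ (Associates.mk v.asIdeal).count (Associates.mk I).factors) →
        ∃ A J : Ideal (𝓞 K), e ∈ A ∧ I = A * J ^ m := by
  classical
  choose π hπ hπ0 using fun v : HeightOneSpectrum (𝓞 K) =>
    Submodule.exists_mem_ne_zero_of_ne_bot v.ne_bot
  refine ⟨∏ v ∈ hT.toFinset, π v ^ m, prod_ne_zero_iff.2 fun v _ => pow_ne_zero m (hπ0 v),
    fun I hI hdvd => ?_⟩
  set cnt : HeightOneSpectrum (𝓞 K) → ℕ := fun v =>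
    (Associates.mk v.asIdeal).count (Associates.mk I).factors with hcnt
  have hI' : I ≠ 0 := hI
  set F := hT.toFinset ∪ (Ideal.hasFiniteMulSupport hI').toFinset
  refine ⟨∏ v ∈ F, v.asIdeal ^ (cnt v % m), ∏ v ∈ F, v.asIdeal ^ (cnt v / m), ?_, ?_⟩
  · rw [← prod_subset (subset_union_left : hT.toFinset ⊆ F) fun v _ hv => by
      rw [Nat.mod_eq_zero_of_dvd (hdvd v fun h => hv (hT.mem_toFinset.2 h)), pow_zero]]
    exact SetLike.le_def.1
      (Ideal.dvd_iff_le.1 (prod_dvd_prod_of_dvd _ _ fun v _ =>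
        pow_dvd_pow _ (Nat.mod_lt (cnt v) hm).le))
      (Ideal.prod_mem_prod fun v _ => Ideal.pow_mem_pow (hπ v) m)
  · conv_lhs => rw [← Ideal.finprod_heightOneSpectrum_factorization hI']
    rw [finprod_eq_prod_of_mulSupport_subset (s := F) _ fun v hv =>
      mem_coe.2 (mem_union_right _ ((Set.Finite.mem_toFinset _).2 hv)), ← prod_pow,
      ← prod_mul_distrib]
    refine prod_congr rfl fun v _ => ?_
    rw [← pow_mul, ← pow_add, mul_comm, Nat.mod_add_div]
    rfl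

/-- **Finiteness of `K(T, m)`.** -/
theorem exists_selmer_classes {m : ℕ} (hm : 0 < m) {T : Set (HeightOneSpectrum (𝓞 K))}
    (hT : T.Finite) :
    ∃ Γ : Finset K, (∀ γ ∈ Γ, γ ≠ 0) ∧ ∀ z : K, z ≠ 0 →
      (∀ v ∉ T, ∃ g, v.valuation K z = g ^ m) → ∃ γ ∈ Γ, ∃ ξ : K, z = γ * ξ ^ m := by
  obtain ⟨e, he, hpow⟩ := exists_power_ideal (K := K) hm hT
  obtain ⟨Γ, hΓ0, hΓ⟩ := exists_classes_of_ideal (K := K) hm he
  refine ⟨Γ, hΓ0, fun z hz hval => ?_⟩
  obtain ⟨n, d, hd, hnd⟩ := IsFractionRing.div_surjective (A := 𝓞 K) z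
  have hd0 : d ≠ 0 := nonZeroDivisors.ne_zero hd
  have hdK : (d : K) ≠ 0 := RingOfIntegers.coe_ne_zero_iff.2 hd0
  have hn : n ≠ 0 := by
    rintro rfl
    exact hz (by rw [← hnd, map_zero, zero_div])
  set z' := n * d ^ (m - 1) with hz'
  have hz'0 : z' ≠ 0 := mul_ne_zero hn (pow_ne_zero _ hd0)
  have hzz : algebraMap (𝓞 K) K z' = z * (d : K) ^ m := by
    rw [← hnd, hz', map_mul, map_pow, ← mul_pow_sub_one hm.ne' (d : K), ← mul_assoc,
      div_mul_cancel₀ _ hdK]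
  obtain ⟨A, J, hA, hAJ⟩ := hpow (Ideal.span {z'})
    (fun h => hz'0 (Ideal.span_singleton_eq_bot.1 h)) fun v hv => by
      obtain ⟨g, hg⟩ := hval v hv
      set c := (Associates.mk v.asIdeal).count (Associates.mk (Ideal.span {z'})).factors
      have h1 : WithZero.exp (-(c : ℤ)) = (g * v.valuation K (d : K)) ^ m := by
        rw [mul_pow, ← hg, ← map_pow, ← map_mul, ← hzz, HeightOneSpectrum.valuation_of_algebraMap,
          HeightOneSpectrum.intValuation_if_neg _ hz'0]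
      have hgd : g * v.valuation K (d : K) ≠ 0 := fun h0 =>
        WithZero.exp_ne_zero (h1.trans (by rw [h0, zero_pow hm.ne']))
      obtain ⟨j, hj⟩ : ∃ j : ℤ, g * v.valuation K (d : K) = WithZero.exp j :=
        ⟨_, (WithZero.exp_log hgd).symm⟩
      rw [hj, ← WithZero.exp_nsmul, WithZero.exp_inj, nsmul_eq_mul] at h1
      exact Int.natCast_dvd_natCast.1 ⟨-j, by linear_combination -h1⟩
  obtain ⟨γ, hγ, ξ, hξ⟩ := hΓ z' A J hz'0 hA hAJ
  refine ⟨γ, hγ, (ξ : K) / (d : K), ?_⟩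
  rw [div_pow, ← mul_div_assoc, ← hξ,
    show (z' : K) = z * (d : K) ^ m from hzz, mul_div_cancel_right₀ _ (pow_ne_zero m hdK)]

/-- Finitely many classes of `S`-units modulo `m`-th powers. -/
theorem exists_sunit_classes {m : ℕ} (hm : 0 < m) {S : Set (HeightOneSpectrum (𝓞 K))}
    (hS : S.Finite) :
    ∃ Γ : Finset (S.unit K), ∀ u : S.unit K, ∃ γ ∈ Γ, ∃ z : S.unit K, u = γ * z ^ m := by
  classical
  obtain ⟨Γ₀, hΓ0, hΓ⟩ := exists_selmer_classes (K := K) hm hS
  let pick : K → S.unit K := fun γ =>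
    if h : ∃ u : S.unit K, ∃ ξ : K, ((u : Kˣ) : K) = γ * ξ ^ m then h.choose else 1
  refine ⟨Γ₀.image pick, fun u => ?_⟩
  have hu0 : ((u : Kˣ) : K) ≠ 0 := Units.ne_zero _
  obtain ⟨γ, hγ, ξ, hξ⟩ := hΓ _ hu0 fun v hv =>
    ⟨1, by rw [one_pow, S.unit_valuation_eq_one K u hv]⟩
  have hex : ∃ u : S.unit K, ∃ ξ : K, ((u : Kˣ) : K) = γ * ξ ^ m := ⟨u, ξ, hξ⟩
  have hpick : pick γ = hex.choose := dif_pos hex
  obtain ⟨ξ₀, hξ₀⟩ := hex.choose_spec
  rw [← hpick] at hξ₀
  set u₀ := pick γ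
  have hξ0 : ξ ≠ 0 := fun h => hu0 (by rw [hξ, h, zero_pow hm.ne', mul_zero])
  have hξ₀0 : ξ₀ ≠ 0 := fun h =>
    Units.ne_zero (u₀ : Kˣ) (by rw [hξ₀, h, zero_pow hm.ne', mul_zero])
  set y : Kˣ := Units.mk0 (ξ / ξ₀) (div_ne_zero hξ0 hξ₀0) with hy
  have hyeq : ((u : Kˣ) : K) = ((u₀ : Kˣ) : K) * (y : K) ^ m := by
    rw [hξ, hξ₀, hy, Units.val_mk0, mul_assoc, ← mul_pow, mul_div_cancel₀ _ hξ₀0]
  have hyS : y ∈ S.unit K := fun v hv => by
    have h := congrArg (v.valuation K) hyeq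
    rw [map_mul, map_pow, S.unit_valuation_eq_one K u hv, S.unit_valuation_eq_one K u₀ hv,
      one_mul] at h
    exact (pow_eq_one_iff_left hm.ne').1 h.symm
  refine ⟨u₀, mem_image_of_mem pick hγ, ⟨y, hyS⟩, Subtype.ext (Units.ext ?_)⟩
  rw [hyeq]
  simp

end FA.Roth

end
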