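import Fermat.Agent.Roth.Field.Finite
import Fermat.Agent.Roth.Field.Place
import Fermat.Agent.Roth.Field.Selmer
import Mathlib.FieldTheory.SplittingField.Construction

/-!
# The `S`-unit equation

In every number field `a u + b v = c` has finitely many solutions in `S`-units: with
`u = γ z ^ m`, `v = δ w ^ m` the quotient `z / w` would be too good an approximation to an `m`-th
root at the place, archimedean or in `S`, at which `w` is largest.
-/

set_option autoImplicit false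

noncomputable section

namespace FA.Roth

open Finset NumberField IsDedekindDomain Height Polynomial

variable {K : Type*} [Field K] [NumberField K]

/-- The height of a quotient `z / w` with `A z ^ m + B w ^ m = c`. -/
theorem exists_height_bound {A : K} (hA : A ≠ 0) (B c : K) {m : ℕ} (hm : 0 < m) :
    ∃ C : ℝ, 1 ≤ C ∧ ∀ z w : K, A * z ^ m + B * w ^ m = c →
      mulHeight₁ (z / w) ≤ C * mulHeight₁ w ^ 2 := by
  set P := (2 : ℝ) ^ totalWeight K * mulHeight₁ c * mulHeight₁ B * mulHeight₁ A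
  have hP : 1 ≤ P := one_le_mul_of_one_le_of_one_le (one_le_mul_of_one_le_of_one_le
    (one_le_mul_of_one_le_of_one_le (one_le_pow₀ one_le_two) (one_le_mulHeight₁ c))
    (one_le_mulHeight₁ B)) (one_le_mulHeight₁ A)
  refine ⟨P, hP, fun z w h => ?_⟩
  have hw := one_le_mulHeight₁ w
  have hzm : mulHeight₁ z ^ m ≤ (P * mulHeight₁ w) ^ m := by
    rw [← mulHeight₁_pow, show z ^ m = (c - B * w ^ m) * A⁻¹ by
      rw [← h, add_sub_cancel_right, mul_comm A, mul_inv_cancel_right₀ hA]]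
    calc mulHeight₁ ((c - B * w ^ m) * A⁻¹)
        ≤ mulHeight₁ (c - B * w ^ m) * mulHeight₁ A := by
          simpa only [mulHeight₁_inv] using mulHeight₁_mul_le (c - B * w ^ m) A⁻¹
      _ ≤ (2 : ℝ) ^ totalWeight K * mulHeight₁ c * (mulHeight₁ B * mulHeight₁ w ^ m) *
          mulHeight₁ A := by
          refine mul_le_mul_of_nonneg_right ((mulHeight₁_sub_le c (B * w ^ m)).trans ?_)
            (mulHeight₁_nonneg A)
          rw [← mulHeight₁_pow]
          exact mul_le_mul_of_nonneg_left (mulHeight₁_mul_le _ _) (by positivity)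
      _ = P * mulHeight₁ w ^ m := by ring
      _ ≤ P ^ m * mulHeight₁ w ^ m :=
          mul_le_mul_of_nonneg_right (le_self_pow₀ hP hm.ne') (by positivity)
      _ = (P * mulHeight₁ w) ^ m := (mul_pow _ _ _).symm
  have hz := (pow_le_pow_iff_left₀ (mulHeight₁_nonneg z) (by positivity) hm.ne').1 hzm
  calc mulHeight₁ (z / w) ≤ mulHeight₁ z * mulHeight₁ w := by
        simpa only [div_eq_mul_inv, mulHeight₁_inv] using mulHeight₁_mul_le z w⁻¹
    _ ≤ P * mulHeight₁ w * mulHeight₁ w := mul_le_mul_of_nonneg_right hz (mulHeight₁_nonneg w)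
    _ = P * mulHeight₁ w ^ 2 := by ring

/-- The quotients `z / w` of the solutions with `w` largest at a given place are finite. -/
theorem finite_quotients {M : Type*} [NormedField M] {ι : K →+* M} (hι : NormAtPlace ι)
    {A B c : K} (hA : A ≠ 0) (hB : B ≠ 0) {N m : ℕ} (hN : 0 < N) (hm : m = 12 * N)
    (hsplit : (X ^ m - C (ι (-(B / A)))).Splits) :
    {x : K | ∃ z w : K, w ≠ 0 ∧ x = z / w ∧ A * z ^ m + B * w ^ m = c ∧
      mulHeight₁ w ≤ ‖ι w‖ ^ (2 * N)}.Finite := by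
  classical
  have : CharZero M := charZero_of_injective_ringHom ι.injective
  have hm0 : 0 < m := by omega
  set β := ι (-(B / A)) with hβ_def
  have hβ : β ≠ 0 := (map_ne_zero ι).2 (neg_ne_zero.2 (div_ne_zero hB hA))
  obtain ⟨Cr, hCr, hnear⟩ := exists_root_pow_near hβ hm0 hsplit
  obtain ⟨CH, hCH, hheight⟩ := exists_height_bound hA B c hm0
  set C₂ := Cr * ‖ι (c / A)‖ * CH ^ 3 with hC₂
  have hC₂0 : 0 ≤ C₂ := by positivity
  have halg : ∀ θ : M, θ ^ m = β → IsAlgebraic ℤ θ := fun θ hθ => by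
    refine IsAlgebraic.of_pow hm0 ?_
    rw [hθ, hβ_def]
    exact ((IsFractionRing.isAlgebraic_iff ℤ ℚ K).2
      (Algebra.IsAlgebraic.isAlgebraic _)).algHom ι.toIntAlgHom
  have hfinR : {θ : M | θ ^ m = β}.Finite := by
    refine (finite_setOfPred_isRoot (monic_X_pow_sub_C β hm0.ne').ne_zero).subset fun θ hθ => ?_
    show IsRoot _ θ
    simp [Set.mem_ofPred_eq ▸ hθ]
  refine ((hfinR.biUnion fun θ hθ => finite_near hι (halg θ hθ)
    (show (2 : ℝ) < 5 / 2 by norm_num)).union (finite_setOfPred_mulHeight₁_le K (C₂ ^ 2))).subset ?_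
  rintro x ⟨z, w, hw, rfl, hrel, hbig⟩
  set x := z / w with hx
  by_cases hsmall : mulHeight₁ x ≤ C₂ ^ 2
  · exact Or.inr hsmall
  refine Or.inl ?_
  obtain ⟨θ, hθ, hθle⟩ := hnear (ι x)
  refine Set.mem_biUnion (x := θ) hθ ?_
  show ‖ι x - θ‖ < mulHeight₁ x ^ (-(5 / 2 : ℝ))
  have hW : 0 < ‖ι w‖ := norm_pos_iff.2 ((map_ne_zero ι).2 hw)
  have hdist : ‖ι x ^ m - β‖ = ‖ι (c / A)‖ * (‖ι w‖ ^ m)⁻¹ := by
    rw [hβ_def, ← map_pow ι x, ← map_sub, show x ^ m - -(B / A) = c / A * (w ^ m)⁻¹ by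
      rw [← hrel, hx, div_pow]
      field_simp
      ring, map_mul, map_inv₀, map_pow, norm_mul, norm_inv, norm_pow]
  have hH := mulHeight₁_pos x
  have h3 : mulHeight₁ x ^ 3 ≤ CH ^ 3 * ‖ι w‖ ^ m := by
    refine (pow_le_pow_left₀ hH.le (hheight z w hrel) 3).trans ?_
    rw [mul_pow, ← pow_mul, hm, show 12 * N = 2 * N * 6 by ring, pow_mul _ (2 * N) 6]
    exact mul_le_mul_of_nonneg_left (pow_le_pow_left₀ (mulHeight₁_nonneg w) hbig 6) (by positivity)
  have h5 : (‖ι w‖ ^ m)⁻¹ ≤ CH ^ 3 * (mulHeight₁ x ^ 3)⁻¹ := by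
    rw [← div_eq_mul_inv, inv_eq_one_div, div_le_div_iff₀ (pow_pos hW m) (pow_pos hH 3), one_mul]
    exact h3
  calc ‖ι x - θ‖ ≤ Cr * (‖ι (c / A)‖ * (‖ι w‖ ^ m)⁻¹) := hdist ▸ hθle
    _ ≤ C₂ * (mulHeight₁ x ^ 3)⁻¹ := by
        rw [hC₂, mul_assoc Cr, mul_assoc Cr, mul_assoc ‖ι (c / A)‖]
        exact mul_le_mul_of_nonneg_left (mul_le_mul_of_nonneg_left h5 (norm_nonneg _)) hCr.le
    _ < mulHeight₁ x ^ (1 / 2 : ℝ) * (mulHeight₁ x ^ 3)⁻¹ := by
        refine mul_lt_mul_of_pos_right ?_ (by positivity)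
        rw [← Real.sqrt_eq_rpow, Real.lt_sqrt hC₂0]
        exact not_le.1 hsmall
    _ = mulHeight₁ x ^ (-(5 / 2 : ℝ)) := by
        rw [← Real.rpow_natCast, ← Real.rpow_neg hH.le, ← Real.rpow_add hH]
        norm_num

/-- The same at one of the places in `S` or at infinity. -/
theorem finite_quotients_place {S : Set (HeightOneSpectrum (𝓞 K))} (p : InfinitePlace K ⊕ S)
    {A B c : K} (hA : A ≠ 0) (hB : B ≠ 0) {N m : ℕ} (hN : 0 < N) (hm : m = 12 * N) :
    {x : K | ∃ z w : K, w ≠ 0 ∧ x = z / w ∧ A * z ^ m + B * w ^ m = c ∧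
      mulHeight₁ w ≤ placeVal S p w ^ (2 * N)}.Finite := by
  rcases p with w₀ | v
  · obtain ⟨φ, rfl⟩ : ∃ φ, InfinitePlace.mk φ = w₀ := ⟨w₀.embedding, w₀.mk_embedding⟩
    exact (finite_quotients (normAtPlace_embedding φ) (c := c) hA hB hN hm
      (IsAlgClosed.splits _)).subset fun x hx => hx
  let F : K[X] := X ^ m - C (-(B / A))
  let L := F.SplittingField
  have : NumberField L := NumberField.of_module_finite K L
  obtain ⟨w, hw⟩ := exists_place_extension v.1 L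
  let ι : K →+* WithAbs w := ((WithAbs.equiv w).symm : L →+* WithAbs w).comp (algebraMap K L)
  have hι : ∀ y, ‖ι y‖ = FinitePlace.mk v.1 y := fun y => hw y
  have hsplit : (X ^ m - C (ι (-(B / A)))).Splits := by
    have h := (SplittingField.splits F).map ((WithAbs.equiv w).symm : L →+* WithAbs w)
    rw [Polynomial.map_map] at h
    simpa [F, ι, Polynomial.map_sub, Polynomial.map_pow] using h
  refine (finite_quotients (Or.inr ⟨FinitePlace.mk v.1, hι⟩ : NormAtPlace ι) (c := c) hA hB hN hm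
    hsplit).subset ?_
  rintro x ⟨z, w', h1, h2, h3, h4⟩
  exact ⟨z, w', h1, h2, h3, by rw [hι]; exact h4⟩

/-- **The `S`-unit equation.** -/
theorem finite_sunit_equation {S : Set (HeightOneSpectrum (𝓞 K))} (hS : S.Finite) {a b c : K}
    (ha : a ≠ 0) (hb : b ≠ 0) (hc : c ≠ 0) :
    {p : S.unit K × S.unit K |
      a * ((p.1 : Kˣ) : K) + b * ((p.2 : Kˣ) : K) = c}.Finite := by
  classical
  set N := Fintype.card (InfinitePlace K) + hS.toFinset.card
  have hN : 0 < N := Nat.add_pos_left Fintype.card_pos _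
  set m := 12 * N with hm
  obtain ⟨Γ, hΓ⟩ := exists_sunit_classes (K := K) (m := m) (by omega) hS
  have hinj : Function.Injective fun p : S.unit K × S.unit K =>
      (((p.1 : Kˣ) : K), ((p.2 : Kˣ) : K)) := fun p q h =>
    Prod.ext (Subtype.ext (Units.ext (congrArg Prod.fst h)))
      (Subtype.ext (Units.ext (congrArg Prod.snd h)))
  have : Finite S := hS.to_subtype
  have hX : ∀ γ δ : S.unit K, ({x : K | ∃ z w : K, w ≠ 0 ∧ x = z / w ∧
        a * ((γ : Kˣ) : K) * z ^ m + b * ((δ : Kˣ) : K) * w ^ m = c ∧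
        ∃ p, mulHeight₁ w ≤ placeVal S p w ^ (2 * N)} ∪
      {x : K | ∃ z w : K, w ≠ 0 ∧ x = z / w ∧
        a * ((γ : Kˣ) : K) * z ^ m + b * ((δ : Kˣ) : K) * w ^ m = c ∧
        mulHeight₁ w ≤ 1}).Finite := fun γ δ => by
    have hA := mul_ne_zero ha (Units.ne_zero (γ : Kˣ))
    refine Set.Finite.union ((Set.finite_iUnion fun p : InfinitePlace K ⊕ S =>
      finite_quotients_place (c := c) p hA
      (mul_ne_zero hb (Units.ne_zero (δ : Kˣ))) hN hm).subset ?_) ?_
    · rintro x ⟨z, w, h1, h2, h3, p, h4⟩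
      exact Set.mem_iUnion.2 ⟨p, z, w, h1, h2, h3, h4⟩
    · obtain ⟨CH, -, hheight⟩ :=
        exists_height_bound hA (b * ((δ : Kˣ) : K)) c (show 0 < m by omega)
      refine (finite_setOfPred_mulHeight₁_le K CH).subset ?_
      rintro x ⟨z, w, -, rfl, h3, h4⟩
      refine (hheight z w h3).trans ?_
      have h5 : mulHeight₁ w = 1 := le_antisymm h4 (one_le_mulHeight₁ w)
      rw [h5, one_pow, mul_one]
  refine Set.Finite.of_finite_image (Set.Finite.subset (Γ.finite_toSet.biUnion fun γ _ =>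
    Γ.finite_toSet.biUnion fun δ _ => (hX γ δ).image fun x : K =>
      (((γ : Kˣ) : K) * x ^ m *
          (c / (a * ((γ : Kˣ) : K) * x ^ m + b * ((δ : Kˣ) : K))),
        ((δ : Kˣ) : K) * (c / (a * ((γ : Kˣ) : K) * x ^ m + b * ((δ : Kˣ) : K))))) ?_) hinj.injOn
  rintro _ ⟨⟨u, v⟩, huv, rfl⟩
  obtain ⟨γ, hγ, z', hz⟩ := hΓ u
  obtain ⟨δ, hδ, w', hw⟩ := hΓ v
  set z := ((z' : Kˣ) : K)
  set w := ((w' : Kˣ) : K)
  have hu : ((u : Kˣ) : K) = ((γ : Kˣ) : K) * z ^ m := by rw [hz]; simp [z]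
  have hv : ((v : Kˣ) : K) = ((δ : Kˣ) : K) * w ^ m := by rw [hw]; simp [w]
  have hrel : a * ((γ : Kˣ) : K) * z ^ m + b * ((δ : Kˣ) : K) * w ^ m = c := by
    have h : a * ((u : Kˣ) : K) + b * ((v : Kˣ) : K) = c := huv
    rw [hu, hv] at h
    linear_combination h
  have hw0 : w ≠ 0 := Units.ne_zero _
  refine Set.mem_biUnion (mem_coe.2 hγ) (Set.mem_biUnion (mem_coe.2 hδ) ⟨z / w, ?_, ?_⟩)
  · rcases exists_large_place hS w' with h | ⟨p, h⟩
    · exact Or.inr ⟨z, w, hw0, rfl, hrel, h⟩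
    · exact Or.inl ⟨z, w, hw0, rfl, hrel, p, h⟩
  have e : c / (a * ((γ : Kˣ) : K) * (z / w) ^ m + b * ((δ : Kˣ) : K)) = w ^ m := by
    rw [show a * ((γ : Kˣ) : K) * (z / w) ^ m + b * ((δ : Kˣ) : K) = c / w ^ m by
      rw [← hrel, div_pow]
      field_simp, div_div_cancel₀ hc]
  simp only [e, hu, hv, Prod.mk.injEq, and_true]
  rw [div_pow, mul_assoc, div_mul_cancel₀ _ (pow_ne_zero m hw0)]

/-- **Siegel's unit equation.** -/
theorem finite_unit_equation {a b c : K} (ha : a ≠ 0) (hb : b ≠ 0) (hc : c ≠ 0) :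
    {p : (𝓞 K)ˣ × (𝓞 K)ˣ | a * (p.1 : K) + b * (p.2 : K) = c}.Finite := by
  let f : (𝓞 K)ˣ → (∅ : Set (HeightOneSpectrum (𝓞 K))).unit K := fun u =>
    ⟨Units.map (algebraMap (𝓞 K) K).toMonoidHom u, fun v _ => by
      show v.valuation K (algebraMap (𝓞 K) K (u : 𝓞 K)) = 1
      rw [HeightOneSpectrum.valuation_of_algebraMap]
      exact HeightOneSpectrum.intValuation_eq_one_iff.2 fun h =>
        v.isPrime.ne_top (Ideal.eq_top_of_isUnit_mem _ h u.isUnit)⟩
  refine ((finite_sunit_equation Set.finite_empty ha hb hc).preimage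
    (f := fun p : (𝓞 K)ˣ × (𝓞 K)ˣ => (f p.1, f p.2)) fun p _ q _ h => ?_).subset fun p hp => hp
  simp only [Prod.mk.injEq, Subtype.mk.injEq, f] at h
  exact Prod.ext (Units.map_injective RingOfIntegers.coe_injective h.1)
    (Units.map_injective RingOfIntegers.coe_injective h.2)

end FA.Roth

end
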