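import Fermat.Agent.Roth.Field.Height
import Fermat.Agent.Roth.Auxiliary
import Fermat.Agent.Roth.Estimate
import Fermat.Agent.Roth.Parameters
import Mathlib.Analysis.SpecialFunctions.Pow.Real

/-!
# Roth's theorem over number fields

Ridout's and LeVeque's form of Roth's theorem: for a norm restricting to a place of the number
field `K`, archimedean or not, and an algebraic `θ`, only finitely many `x ∈ K` satisfy
`‖x - θ‖ < H x ^ (-κ)` for `κ > 2`. The product formula replaces the integrality of the norm.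
-/

set_option autoImplicit false

noncomputable section

namespace FA.Roth

open MvPolynomial Finset NumberField Height

variable {K : Type*} [Field K] [NumberField K]

theorem prod_pow_le_mul_prod {ι : Type*} {s : Finset ι} {a : ι} (ha : a ∈ s) {f g : ι → ℝ}
    {k : ι → ℕ} (hk : 0 < k a) (hf : ∀ i, 0 ≤ f i) (hfg : ∀ i, f i ≤ g i) (hg : ∀ i, 1 ≤ g i) :
    ∏ i ∈ s, f i ^ k i ≤ f a * ∏ i ∈ s, g i ^ k i := by
  classical
  rw [← mul_prod_erase s (fun i => f i ^ k i) ha, ← mul_prod_erase s (fun i => g i ^ k i) ha,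
    ← pow_sub_one_mul hk.ne' (f a), mul_comm (f a ^ (k a - 1)), mul_assoc]
  refine mul_le_mul_of_nonneg_left (mul_le_mul ?_ ?_ (prod_nonneg fun i _ => pow_nonneg (hf i) _)
    (pow_nonneg (zero_le_one.trans (hg a)) _)) (hf a)
  · exact (pow_le_pow_left₀ (hf a) (hfg a) _).trans (pow_le_pow_right₀ (hg a) (Nat.sub_le _ _))
  · exact prod_le_prod (fun i _ => pow_nonneg (hf i) _) fun i _ =>
      pow_le_pow_left₀ (hf i) (hfg i) _

omit [NumberField K] in
theorem map_aeval_int {L : Type*} [CommRing L] (ι : K →+* L) {σ : Type*} (x : σ → K)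
    (G : MvPolynomial σ ℤ) : ι (aeval x G) = aeval (fun h => ι (x h)) G := by
  rw [aeval_def, aeval_def, eval₂_comp_left]
  congr 1
  exact RingHom.ext_int _ _

/-- **The product formula at a value of an integer polynomial.** -/
theorem one_le_norm_mul {M : Type*} [NormedField M] {ι : K →+* M} (hι : NormAtPlace ι) {m : ℕ}
    {r : Fin m → ℕ} {G : MvPolynomial (Fin m) ℤ} (hG : BoxDeg r G) {x : Fin m → K}
    (hx : aeval x G ≠ 0) :
    1 ≤ ‖ι (aeval x G)‖ * (len G ^ Module.finrank ℚ K * ∏ h, mulHeight₁ (x h) ^ r h) := by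
  classical
  set y := aeval x G with hy
  have hlen : 1 ≤ len G := by
    obtain ⟨s, hs⟩ := ne_zero_iff.1 (fun e : G = 0 => hx (by rw [hy, e, map_zero]))
    refine le_trans ?_ (single_le_sum (f := fun s => |((coeff s G : ℤ) : ℝ)|)
      (fun _ _ => abs_nonneg _) (mem_support_iff.2 hs))
    show (1 : ℝ) ≤ |((coeff s G : ℤ) : ℝ)|
    exact_mod_cast Int.one_le_abs hs
  set gi : InfinitePlace K → ℝ := fun w => len G * ∏ h, max (w (x h)) 1 ^ r h with hgi
  set gf : FinitePlace K → ℝ := fun w => ∏ h, max (w (x h)) 1 ^ r h with hgf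
  have hgi1 : ∀ w, 1 ≤ gi w := fun w =>
    one_le_mul_of_one_le_of_one_le hlen (one_le_prod fun _ _ => one_le_pow₀ (le_max_right _ _))
  have hgf1 : ∀ w, 1 ≤ gf w := fun w => one_le_prod fun _ _ => one_le_pow₀ (le_max_right _ _)
  have hinf : ∀ w : InfinitePlace K, w y ≤ gi w := fun w => by
    obtain ⟨φ, rfl⟩ : ∃ φ, InfinitePlace.mk φ = w := ⟨w.embedding, w.mk_embedding⟩
    simp only [hgi, InfinitePlace.apply]
    rw [hy, map_aeval_int]
    refine (norm_aeval_le_prod (fun z => (Complex.norm_intCast z).le) hG _).trans (le_of_eq ?_)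
    simp only [max_comm]
  have hfin : ∀ w : FinitePlace K, w y ≤ gf w := fun w => by
    rw [hy, aeval_def, eval₂_eq']
    refine Finset.sum_induction _ (fun z => w z ≤ gf w)
      (fun a b ha hb => (FinitePlace.add_le w a b).trans (max_le ha hb))
      (by rw [map_zero]; exact zero_le_one.trans (hgf1 w)) fun s hs => ?_
    rw [map_mul, map_prod, algebraMap_int_eq, eq_intCast]
    refine le_trans (mul_le_of_le_one_left (prod_nonneg fun _ _ => apply_nonneg w _)
      (finitePlace_le_one w (isIntegral_intCast _))) ?_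
    refine prod_le_prod (fun h _ => apply_nonneg w _) fun h _ => ?_
    rw [map_pow]
    exact (pow_le_pow_left₀ (apply_nonneg w _) (le_max_left _ _) _).trans
      (pow_le_pow_right₀ (le_max_right _ _) (hG s (mem_support_iff.1 hs) h))
  have hmax : ∀ h, (fun w : FinitePlace K => max (w (x h)) 1).HasFiniteMulSupport := fun h => by
    rcases eq_or_ne (x h) 0 with e | e
    · simp [e, Function.HasFiniteMulSupport, Function.mulSupport]
    · exact (FinitePlace.hasFiniteMulSupport e).subset fun w hw e' => hw (by simp [e'])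
  set T : Finset (FinitePlace K) :=
    (FinitePlace.hasFiniteMulSupport hx).toFinset ∪ univ.biUnion fun h => (hmax h).toFinset
  have key : ∀ T' : Finset (FinitePlace K), T ⊆ T' →
      (∏ w : InfinitePlace K, gi w ^ w.mult) * ∏ w ∈ T', gf w ^ 1 =
        len G ^ Module.finrank ℚ K * ∏ h, mulHeight₁ (x h) ^ r h := fun T' hT' => by
    simp only [NumberField.mulHeight₁_eq, mul_pow, pow_one, hgi, hgf, prod_mul_distrib]
    rw [prod_pow_eq_pow_sum, InfinitePlace.sum_mult_eq, mul_assoc]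
    simp only [← prod_pow]
    rw [prod_comm, prod_comm (s := T')]
    congr 2
    · refine prod_congr rfl fun h _ => prod_congr rfl fun w _ => ?_
      rw [← pow_mul, ← pow_mul, mul_comm]
    · refine prod_congr rfl fun h _ => ?_
      rw [prod_pow]
      congr 1
      refine (finprod_eq_prod_of_mulSupport_subset _ fun w hw => mem_coe.2 (hT' ?_)).symm
      exact mem_union_right _ (mem_biUnion.2 ⟨h, mem_univ _, (Set.Finite.mem_toFinset _).2 hw⟩)
  have hprod : ∀ T' : Finset (FinitePlace K), T ⊆ T' →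
      1 = (∏ w : InfinitePlace K, w y ^ w.mult) * ∏ w ∈ T', w y ^ 1 := fun T' hT' => by
    simp only [pow_one]
    rw [← finprod_eq_prod_of_mulSupport_subset (s := T') _ fun w hw =>
      mem_coe.2 (hT' (mem_union_left _ ((Set.Finite.mem_toFinset _).2 hw)))]
    exact (prod_abs_eq_one hx).symm
  obtain ⟨w₀, hw₀⟩ | ⟨w₀, hw₀⟩ := hι
  · rw [hw₀, ← key T subset_rfl]
    calc 1 = (∏ w : InfinitePlace K, w y ^ w.mult) * ∏ w ∈ T, w y ^ 1 := hprod T subset_rfl
      _ ≤ (w₀ y * ∏ w : InfinitePlace K, gi w ^ w.mult) * ∏ w ∈ T, gf w ^ 1 :=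
          mul_le_mul (prod_pow_le_mul_prod (mem_univ w₀) InfinitePlace.mult_pos
              (fun w => apply_nonneg w _) hinf hgi1)
            (prod_le_prod (fun w _ => by positivity) fun w _ =>
              pow_le_pow_left₀ (apply_nonneg w _) (hfin w) 1)
            (prod_nonneg fun w _ => by positivity)
            (mul_nonneg (apply_nonneg w₀ _)
              (prod_nonneg fun w _ => pow_nonneg (zero_le_one.trans (hgi1 w)) _))
      _ = _ := mul_assoc _ _ _
  · rw [hw₀, ← key (insert w₀ T) (subset_insert _ _)]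
    calc 1 = (∏ w : InfinitePlace K, w y ^ w.mult) * ∏ w ∈ insert w₀ T, w y ^ 1 :=
          hprod _ (subset_insert _ _)
      _ ≤ (∏ w : InfinitePlace K, gi w ^ w.mult) *
          (w₀ y * ∏ w ∈ insert w₀ T, gf w ^ 1) :=
          mul_le_mul (prod_le_prod (fun w _ => by positivity) fun w _ =>
              pow_le_pow_left₀ (apply_nonneg w _) (hinf w) _)
            (prod_pow_le_mul_prod (mem_insert_self _ _) one_pos (fun w => apply_nonneg w _)
              hfin hgf1)
            (prod_nonneg fun w _ => by positivity)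
            (prod_nonneg fun w _ => pow_nonneg (zero_le_one.trans (hgi1 w)) _)
      _ = _ := mul_left_comm _ _ _

/-- Roth's theorem over number fields for integral `θ`. -/
theorem finite_near_of_isIntegral {M : Type*} [NormedField M] {ι : K →+* M} (hι : NormAtPlace ι)
    {θ : M} (hθ : IsIntegral ℤ θ) {κ : ℝ} (hκ : 2 < κ) :
    {x : K | ‖ι x - θ‖ < mulHeight₁ x ^ (-κ)}.Finite := by
  classical
  by_contra hinf
  set n := (minpoly ℤ θ).natDegree with hn
  have hn0 : 0 < n := minpoly.natDegree_pos hθ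
  set d := Module.finrank ℚ K with hd
  have hdN : 0 < d := Module.finrank_pos
  have hd0 : (0 : ℝ) < d := by exact_mod_cast hdN
  have hpick : ∀ B : ℝ, ∃ x, ‖ι x - θ‖ < mulHeight₁ x ^ (-κ) ∧ B ≤ Real.log (mulHeight₁ x) :=
    fun B => by
    by_contra! hno
    refine hinf ((finite_setOfPred_mulHeight₁_le K (Real.exp B)).subset fun x hx => ?_)
    exact ((Real.log_le_iff_le_exp (mulHeight₁_pos x)).1 (hno x hx).le)
  set ε := min ((κ - 2) / (8 * (κ + 1))) (1 / 8) with hε_def
  have hε : 0 < ε := lt_min (div_pos (by linarith) (by linarith)) (by norm_num)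
  have hε8 : ε ≤ 1 / 8 := min_le_right _ _
  have hεκ : ε * (8 * (κ + 1)) ≤ κ - 2 := by
    rw [← le_div_iff₀ (by linarith)]
    exact min_le_left _ _
  obtain ⟨m, hm⟩ := exists_nat_gt (((n : ℝ) + 1) / ε ^ 2)
  have hm0 : (0 : ℝ) < m := lt_of_le_of_lt (by positivity) hm
  obtain ⟨C, hC, haux⟩ := exists_auxiliary (minpoly.monic hθ) hn.symm hn0 hε (by linarith) hm
  obtain ⟨σ, hσ, hσ1, hroth⟩ :=
    exists_smallIndex K m (min 1 (ε * m)) (lt_min one_pos (by positivity)) (min_le_left _ _)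
  set A := ‖θ‖ + 1 with hA
  have hA1 : 1 ≤ A := by linarith [norm_nonneg θ]
  set c₁ := Real.log (8 * A * C) + d * Real.log (2 * C) with hc₁
  set M := max (Real.log (C ^ m * 2 ^ ((m + 1) ^ 2)) * d / σ) (4 * c₁ / (κ - 2) + 1) with hM
  obtain ⟨x, r, R, L₁, hR0, hL1, hML, hu, hL, hr0, hrR, hratio, hrlo, hrhi⟩ :=
    exists_parameters (l := fun x => Real.log (mulHeight₁ x)) hpick m hε hσ hσ1 M
  set L : Fin m → ℝ := fun h => Real.log (mulHeight₁ (x h)) with hL_def
  have hL0 : 0 < L₁ := by linarith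
  have hRpos : (0 : ℝ) < R := by exact_mod_cast hR0
  set E := (R : ℝ) * L₁ with hE
  have hE0 : 0 < E := mul_pos hRpos hL0
  obtain ⟨P, hP0, hPbox, hPlen, -, hPvan⟩ := haux r hr0
  have hS : ∑ h, r h ≤ m * R := (sum_le_card_nsmul _ _ R fun h _ => hrR h).trans (by simp)
  have hPlen' : len P ≤ (C ^ m) ^ R := by
    rw [← pow_mul]
    exact hPlen.trans (pow_le_pow_right₀ hC hS)
  have hcond : len P * 2 ^ ((m + 1) ^ 2 * R) ≤ Real.exp (E / d) ^ σ := by
    refine (mul_le_mul_of_nonneg_right hPlen' (by positivity)).trans ?_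
    rw [pow_mul, ← mul_pow, ← Real.exp_mul]
    have h1 : Real.log (C ^ m * 2 ^ ((m + 1) ^ 2)) * d / σ ≤ L₁ := (le_max_left _ _).trans hML
    rw [div_le_iff₀ hσ, ← le_div_iff₀ hd0, Real.log_le_iff_le_exp (by positivity)] at h1
    refine (pow_le_pow_left₀ (by positivity) h1 R).trans (le_of_eq ?_)
    rw [← Real.exp_nat_mul, hE]
    ring_nf
  obtain ⟨μ, hμ, hμw⟩ := hroth r x (fun h => mulHeight₁ (x h) ^ (1 / (d : ℝ))) R
    (Real.exp (E / d)) P
    hP0 hPbox hr0 hrR hratio (Real.one_le_exp (by positivity)) (fun h => heightLE_mulHeight₁ _)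
    (fun h => by
      show Real.exp (E / d) ≤ (mulHeight₁ (x h) ^ (1 / (d : ℝ))) ^ r h
      rw [Real.rpow_def_of_pos (mulHeight₁_pos _), ← Real.exp_nat_mul, Real.exp_le_exp,
        div_le_iff₀ hd0]
      refine (hrlo h).trans (le_of_eq ?_)
      field_simp) hcond
  have hw : weight r μ ≤ ε * m := hμw.trans (min_le_right _ _)
  set G := hasse μ P with hG
  have hGne : aeval x G ≠ 0 := by
    rw [coeff_taylor, hasse_map, eval_map] at hμ
    rwa [aeval_def, algebraMap_int_eq]
  have hφ : ‖ι (aeval x G)‖ ≤ (8 * A) ^ (∑ h, r h) * len P *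
      Real.exp (-((m * (1 / 2 - ε) - weight r μ) * (κ * E))) := by
    rw [map_aeval_int]
    refine norm_aeval_hasse_le hι.norm_intCast hPbox hA1 (by linarith : ‖θ‖ ≤ A)
      (fun ν hν => hPvan θ (minpoly.aeval ℤ θ) ν hν) (by positivity) hr0 (fun h => κ * L h)
      (fun h => ?_) (fun h => ?_) μ
    · have := mul_le_mul_of_nonneg_left (hrlo h) (show (0 : ℝ) ≤ κ by linarith)
      simp only [L]
      linarith
    · refine (hu h).le.trans (le_of_eq ?_)
      rw [Real.rpow_def_of_pos (mulHeight₁_pos _)]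
      simp only [L]
      ring_nf
  set B₂ := (2 * C) ^ (m * R) with hB₂
  have hB₂1 : 1 ≤ B₂ := one_le_pow₀ (by linarith)
  have hlenG : len G ≤ B₂ := by
    refine (len_hasse_le hPbox μ).trans ?_
    rw [hB₂, mul_pow]
    exact mul_le_mul (pow_le_pow_right₀ one_le_two hS) (hPlen.trans (pow_le_pow_right₀ hC hS))
      (len_nonneg P) (by positivity)
  have hlow := one_le_norm_mul hι (hPbox.hasse μ) hGne
  have hprod : ∏ h, mulHeight₁ (x h) ^ r h ≤ Real.exp (m * ((1 + ε) * E)) := by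
    have h1 : ∀ h, mulHeight₁ (x h) ^ r h = Real.exp ((r h : ℝ) * L h) := fun h => by
      rw [Real.exp_nat_mul, Real.exp_log (mulHeight₁_pos _)]
    simp only [h1]
    rw [← Real.exp_sum, Real.exp_le_exp]
    exact (sum_le_card_nsmul _ _ _ fun h _ => hrhi h).trans (by simp)
  have hbig : B₂ ^ d * ((8 * A) ^ (∑ h, r h) * len P) ≤ Real.exp ((m : ℝ) * R * c₁) := by
    rw [hc₁, mul_add ((m : ℝ) * R), Real.exp_add, mul_comm (Real.exp _),
      show (m : ℝ) * R = ((m * R : ℕ) : ℝ) by push_cast; rfl]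
    refine mul_le_mul (le_of_eq ?_) ?_ (mul_nonneg (by positivity) (len_nonneg P))
      (Real.exp_pos _).le
    · rw [← mul_assoc, ← Nat.cast_mul, Real.exp_nat_mul, Real.exp_log (by positivity), hB₂,
        ← pow_mul]
    · rw [Real.exp_nat_mul, Real.exp_log (by positivity), mul_pow (8 * A)]
      exact mul_le_mul (pow_le_pow_right₀ (by linarith) hS)
        (hPlen.trans (pow_le_pow_right₀ hC hS)) (len_nonneg P) (by positivity)
  have hfinal : (1 : ℝ) ≤ Real.exp ((m : ℝ) * R * c₁ + m * ((1 + ε) * E) +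
      -((m * (1 / 2 - ε) - weight r μ) * (κ * E))) := by
    refine hlow.trans ?_
    set EX := Real.exp (-((m * (1 / 2 - ε) - weight r μ) * (κ * E))) with hEX
    rw [Real.exp_add, Real.exp_add, ← hEX]
    set PH := ∏ h, mulHeight₁ (x h) ^ r h with hPH
    have hPH0 : 0 ≤ PH := prod_nonneg fun _ _ => pow_nonneg (mulHeight₁_nonneg _) _
    calc ‖ι (aeval x G)‖ * (len G ^ d * PH)
        ≤ ((8 * A) ^ (∑ h, r h) * len P * EX) * (B₂ ^ d * PH) :=
          mul_le_mul hφ (mul_le_mul_of_nonneg_right (pow_le_pow_left₀ (len_nonneg G) hlenG d) hPH0)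
            (mul_nonneg (pow_nonneg (len_nonneg G) d) hPH0)
            (mul_nonneg (mul_nonneg (by positivity) (len_nonneg P)) (Real.exp_pos _).le)
      _ = B₂ ^ d * ((8 * A) ^ (∑ h, r h) * len P) * PH * EX := by ring
      _ ≤ _ := mul_le_mul_of_nonneg_right (mul_le_mul hbig hprod hPH0 (Real.exp_pos _).le)
          (Real.exp_pos _).le
  rw [Real.one_le_exp_iff] at hfinal
  have hkey : c₁ < (κ - 2) / 4 * L₁ := by
    have h1 : 4 * c₁ / (κ - 2) < L₁ := by linarith [(le_max_right _ _).trans hML]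
    rw [div_lt_iff₀ (by linarith)] at h1
    linarith
  have hc1 : κ * E * ((m : ℝ) * (1 / 2 - 2 * ε)) ≤
      κ * E * ((m : ℝ) * (1 / 2 - ε) - weight r μ) :=
    mul_le_mul_of_nonneg_left (by linarith) (by positivity)
  have hc2 : (κ - 2) / 4 * ((m : ℝ) * E) ≤
      (κ / 2 - 1 - ε * (2 * κ + 1)) * ((m : ℝ) * E) :=
    mul_le_mul_of_nonneg_right (by linarith) (by positivity)
  have hc3 := mul_lt_mul_of_pos_left hkey (mul_pos hm0 hRpos)
  linarith [hE, mul_assoc (m : ℝ) R L₁]

/-- **Roth's theorem over number fields** at an arbitrary place. -/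
theorem finite_near {M : Type*} [NormedField M] {ι : K →+* M} (hι : NormAtPlace ι) {θ : M}
    (hθ : IsAlgebraic ℤ θ) {κ : ℝ} (hκ : 2 < κ) :
    {x : K | ‖ι x - θ‖ < mulHeight₁ x ^ (-κ)}.Finite := by
  classical
  obtain ⟨D, hD, hint⟩ := hθ.exists_integral_multiple
  rw [zsmul_eq_mul] at hint
  set κ' := (2 + κ) / 2 with hκ'
  have hgap : 0 < κ - κ' := by linarith
  have hDK : (D : K) ≠ 0 := Int.cast_ne_zero.2 hD
  have hHD : 0 < mulHeight₁ (D : K) := mulHeight₁_pos _
  set B := (|(D : ℝ)| * mulHeight₁ (D : K) ^ κ) ^ (1 / (κ - κ')) with hB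
  refine (((finite_near_of_isIntegral hι hint (show 2 < κ' by linarith)).union
    (finite_setOfPred_mulHeight₁_le K B)).preimage (f := fun x => (D : K) * x)
    (fun a _ b _ h => mul_left_cancel₀ hDK h)).subset fun x hx => ?_
  show (D : K) * x ∈ {y : K | ‖ι y - (D : M) * θ‖ < mulHeight₁ y ^ (-κ')} ∪
    {y : K | mulHeight₁ y ≤ B}
  by_cases hyB : mulHeight₁ ((D : K) * x) ≤ B
  · exact Or.inr hyB
  refine Or.inl ?_
  set y := (D : K) * x with hy
  show ‖ι y - (D : M) * θ‖ < mulHeight₁ y ^ (-κ')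
  rw [hy, map_mul, map_intCast, ← mul_sub, norm_mul, ← hy]
  have hy0 := mulHeight₁_pos y
  have h1 : mulHeight₁ y / mulHeight₁ (D : K) ≤ mulHeight₁ x := by
    rw [div_le_iff₀ hHD, mul_comm]
    exact mulHeight₁_mul_le _ x
  have h2 : mulHeight₁ x ^ (-κ) ≤ mulHeight₁ (D : K) ^ κ * mulHeight₁ y ^ (-κ) := by
    refine (Real.rpow_le_rpow_of_nonpos (div_pos hy0 hHD) h1 (by linarith)).trans ?_
    rw [Real.div_rpow hy0.le hHD.le, Real.rpow_neg hHD.le, div_inv_eq_mul, mul_comm]
  have h3 : |(D : ℝ)| * mulHeight₁ (D : K) ^ κ ≤ mulHeight₁ y ^ (κ - κ') := by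
    have h4 := Real.rpow_le_rpow (by positivity) (not_le.1 hyB).le hgap.le
    rwa [hB, ← Real.rpow_mul (by positivity), one_div_mul_cancel hgap.ne', Real.rpow_one] at h4
  calc ‖(D : M)‖ * ‖ι x - θ‖ ≤ |(D : ℝ)| * ‖ι x - θ‖ :=
        mul_le_mul_of_nonneg_right (hι.norm_intCast D) (norm_nonneg _)
    _ < |(D : ℝ)| * mulHeight₁ x ^ (-κ) :=
        mul_lt_mul_of_pos_left hx (abs_pos.2 (Int.cast_ne_zero.2 hD))
    _ ≤ |(D : ℝ)| * (mulHeight₁ (D : K) ^ κ * mulHeight₁ y ^ (-κ)) :=
        mul_le_mul_of_nonneg_left h2 (abs_nonneg _)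
    _ ≤ mulHeight₁ y ^ (κ - κ') * mulHeight₁ y ^ (-κ) := by
        rw [← mul_assoc]
        exact mul_le_mul_of_nonneg_right h3 (Real.rpow_nonneg hy0.le _)
    _ = mulHeight₁ y ^ (-κ') := by rw [← Real.rpow_add hy0]; ring_nf

/-- **LeVeque's theorem**: the case of an embedding into `ℂ`. -/
theorem finite_near_embedding (φ : K →+* ℂ) {θ : ℂ} (hθ : IsAlgebraic ℚ θ) {κ : ℝ} (hκ : 2 < κ) :
    {x : K | ‖φ x - θ‖ < mulHeight₁ x ^ (-κ)}.Finite := by
  have : Algebra.IsAlgebraic ℤ ℚ := IsLocalization.isAlgebraic ℚ (nonZeroDivisors ℤ)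
  exact finite_near (normAtPlace_embedding φ) ((IsFractionRing.isAlgebraic_iff ℤ ℚ ℂ).2 hθ) hκ

end FA.Roth

end
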