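import Fermat.Agent.Roth.Lemma
import Mathlib.Analysis.Normed.Field.WithAbs
import Mathlib.Analysis.Polynomial.MahlerMeasure
import Mathlib.Analysis.SpecialFunctions.Pow.Real
import Mathlib.NumberTheory.Height.NumberField

/-!
# The height as a size in Roth's method

Mathlib's multiplicative height `H` of an element `x` of a number field of degree `d` bounds
from below the coefficients of the integer polynomials vanishing at `x`: if `(X - x) ^ t` divides
`V` then `a * x ^ t` is integral for the leading coefficient `a`, which bounds the finite part of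
the height, and the Mahler measure bounds the infinite part.
-/

set_option autoImplicit false

noncomputable section

namespace FA.Roth

open Polynomial Finset NumberField

variable {K : Type*} [Field K] [NumberField K]

/-- An integral factor of an integral polynomial. -/
theorem isIntegral_coeff_of_mul {β : ℂ} : ∀ (n : ℕ) (q : ℂ[X]), q.natDegree < n →
    (∀ i, IsIntegral ℤ (((X - C β) * q).coeff i)) → ∀ i, IsIntegral ℤ (q.coeff i) := by
  intro n
  induction n with
  | zero => intro q hq; omega
  | succ n ih =>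
    intro q hq hint
    by_cases hq0 : q = 0
    · intro i
      rw [hq0, coeff_zero]
      exact isIntegral_zero
    set p := (X - C β) * q with hp
    set a := q.leadingCoeff with ha_def
    have hlead : p.leadingCoeff = a := by
      rw [hp, leadingCoeff_mul, leadingCoeff_X_sub_C, one_mul]
    have ha : IsIntegral ℤ a := hlead ▸ hint _
    have haβ : IsIntegral ℤ (a * β) := by
      have hlifts : p ∈ Polynomial.lifts (algebraMap (integralClosure ℤ ℂ) ℂ) :=
        (lifts_iff_coeff_lifts p).2 fun i => ⟨⟨p.coeff i, hint i⟩, rfl⟩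
      obtain ⟨p', hp'⟩ := (Polynomial.mem_lifts p).1 hlifts
      have hroot : eval₂ (algebraMap (integralClosure ℤ ℂ) ℂ) β p' = 0 := by
        rw [← eval_map, hp', hp]
        simp
      have h := RingHom.isIntegralElem_leadingCoeff_mul
        (algebraMap (integralClosure ℤ ℂ) ℂ) p' β hroot
      rw [← leadingCoeff_map_of_injective (f := algebraMap (integralClosure ℤ ℂ) ℂ)
        Subtype.val_injective, hp', hlead] at h
      exact isIntegral_trans (A := integralClosure ℤ ℂ) _ h
    have hrest : ∀ i, IsIntegral ℤ ((q.eraseLead).coeff i) := by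
      rcases Nat.eq_zero_or_pos q.natDegree with h0 | h0
      · intro i
        rw [eq_C_of_natDegree_eq_zero h0, eraseLead_C, coeff_zero]
        exact isIntegral_zero
      refine ih _ (lt_of_le_of_lt (eraseLead_natDegree_le q) (by omega)) fun i => ?_
      rw [← self_sub_C_mul_X_pow, mul_sub, ← hp, coeff_sub]
      refine (hint i).sub ?_
      rw [← ha_def, show (X - C β) * (C a * X ^ q.natDegree) =
        C a * X ^ (q.natDegree + 1) - C (a * β) * X ^ q.natDegree by rw [C_mul, pow_succ]; ring,
        coeff_sub, coeff_C_mul_X_pow, coeff_C_mul_X_pow]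
      refine IsIntegral.sub ?_ ?_ <;> split_ifs <;> first | exact isIntegral_zero | assumption
    intro i
    rw [← eraseLead_add_C_mul_X_pow q, coeff_add, coeff_C_mul_X_pow]
    refine (hrest i).add ?_
    split_ifs
    · exact ha
    · exact isIntegral_zero

/-- A root of multiplicity `t` times the leading coefficient is integral. -/
theorem isIntegral_lead_mul_pow {V : ℤ[X]} {β : ℂ} {t : ℕ}
    (h : (X - C β) ^ t ∣ V.map (Int.castRingHom ℂ)) :
    IsIntegral ℤ ((V.leadingCoeff : ℂ) * β ^ t) := by
  obtain ⟨W, hW⟩ := h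
  have hlc : W.leadingCoeff = (V.leadingCoeff : ℂ) := by
    have := congrArg leadingCoeff hW
    rw [leadingCoeff_mul, leadingCoeff_pow, leadingCoeff_X_sub_C, one_pow, one_mul,
      leadingCoeff_map_of_injective Int.cast_injective, eq_intCast] at this
    exact this.symm
  have key : ∀ s : Multiset ℂ,
      (∀ i, IsIntegral ℤ (((X - C β) ^ t * C (V.leadingCoeff : ℂ) *
        (s.map fun r => X - C r).prod).coeff i)) →
      ∀ i, IsIntegral ℤ (((X - C β) ^ t * C (V.leadingCoeff : ℂ)).coeff i) := by
    intro s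
    induction s using Multiset.induction_on with
    | empty => simp
    | cons r s ih =>
      intro h
      refine ih (isIntegral_coeff_of_mul (β := r) _ _ (Nat.lt_succ_self _) fun i => ?_)
      rw [mul_left_comm, ← Multiset.prod_cons, ← Multiset.map_cons (fun r => X - C r)]
      exact h i
  have h0 := key W.roots (fun i => by
    rw [mul_assoc, ← hlc, ← (IsAlgClosed.splits W).eq_prod_roots, ← hW, coeff_map, eq_intCast]
    exact isIntegral_intCast _) 0
  rw [coeff_zero_eq_eval_zero, eval_mul, eval_pow, eval_sub, eval_X, eval_C, eval_C,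
    zero_sub, neg_pow] at h0
  rw [show (V.leadingCoeff : ℂ) * β ^ t =
      (-1) ^ t * ((-1) ^ t * β ^ t * (V.leadingCoeff : ℂ)) by
    rw [← mul_assoc, ← mul_assoc, ← mul_pow, neg_one_mul, neg_neg, one_pow, one_mul, mul_comm]]
  exact (isIntegral_one.neg.pow t : IsIntegral ℤ ((-1 : ℂ) ^ t)).mul h0

theorem finitePlace_le_one (w : FinitePlace K) {x : K} (hx : IsIntegral ℤ x) : w x ≤ 1 := by
  have h := NumberField.FinitePlace.norm_le_one K w.maximalIdeal (⟨x, hx⟩ : 𝓞 K)
  rwa [show algebraMap (𝓞 K) K (⟨x, hx⟩ : 𝓞 K) = x from rfl,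
    FinitePlace.norm_embedding_eq] at h

omit [NumberField K] in
theorem infinitePlace_intCast (w : InfinitePlace K) (z : ℤ) : w (z : K) = |(z : ℝ)| := by
  obtain ⟨φ, rfl⟩ : ∃ φ, InfinitePlace.mk φ = w := ⟨w.embedding, w.mk_embedding⟩
  rw [InfinitePlace.apply, map_intCast, Complex.norm_intCast]

/-- The height bounds the coefficients of the integer polynomials vanishing at `x`. -/
theorem heightLE_mulHeight₁ (x : K) :
    HeightLE x (Height.mulHeight₁ x ^ (1 / (Module.finrank ℚ K : ℝ))) := by
  classical
  have hH := Height.mulHeight₁_pos x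
  refine ⟨Real.rpow_nonneg hH.le _, fun V t hV h => ?_⟩
  set a : ℤ := V.leadingCoeff with ha_def
  set d := Module.finrank ℚ K with hd_def
  set len := ∑ j ∈ V.support, |(V.coeff j : ℝ)|
  have hd : d ≠ 0 := Module.finrank_pos.ne'
  have haK : (a : K) ≠ 0 := Int.cast_ne_zero.2 (leadingCoeff_ne_zero.2 hV)
  have hdvd : ∀ φ : K →+* ℂ, (X - C (φ x)) ^ t ∣ V.map (Int.castRingHom ℂ) := fun φ => by
    have h1 := map_dvd (mapRingHom φ) h
    simp only [map_pow, map_sub, coe_mapRingHom, map_X, map_C, Polynomial.map_map] at h1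
    rwa [RingHom.ext_int (φ.comp (Int.castRingHom K)) (Int.castRingHom ℂ)] at h1
  have hint : IsIntegral ℤ ((a : K) * x ^ t) := by
    obtain ⟨φ⟩ : Nonempty (K →+* ℂ) := inferInstance
    rw [← isIntegral_algHom_iff φ.toIntAlgHom φ.injective]
    show IsIntegral ℤ (φ ((a : K) * x ^ t))
    rw [map_mul, map_pow, map_intCast]
    exact isIntegral_lead_mul_pow (hdvd φ)
  have hinf : ∀ w : InfinitePlace K, |(a : ℝ)| * max (w x) 1 ^ t ≤ len := fun w => by
    have hroots : ∀ {p : ℂ[X]}, p ≠ 0 → ∀ k : ℕ, (p ^ k).mahlerMeasure = p.mahlerMeasure ^ k := by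
      intro p hp k
      induction k with
      | zero => simp
      | succ k ih => rw [pow_succ, mahlerMeasure_mul, ih, pow_succ]
    obtain ⟨φ, rfl⟩ : ∃ φ, InfinitePlace.mk φ = w := ⟨w.embedding, w.mk_embedding⟩
    obtain ⟨W, hW⟩ := hdvd φ
    have hW0 : W ≠ 0 := fun e => by
      rw [e, mul_zero] at hW
      exact hV (map_injective _ Int.cast_injective (hW.trans (Polynomial.map_zero _).symm))
    have hlcW : ‖W.leadingCoeff‖ = |(a : ℝ)| := by
      have := congrArg leadingCoeff hW
      rw [leadingCoeff_mul, leadingCoeff_pow, leadingCoeff_X_sub_C, one_pow, one_mul,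
        leadingCoeff_map_of_injective Int.cast_injective, eq_intCast] at this
      rw [← this, Complex.norm_intCast]
    calc |(a : ℝ)| * max (InfinitePlace.mk φ x) 1 ^ t
        = max 1 ‖φ x‖ ^ t * ‖W.leadingCoeff‖ := by
          rw [hlcW, InfinitePlace.apply, max_comm, mul_comm]
      _ ≤ max 1 ‖φ x‖ ^ t * W.mahlerMeasure :=
          mul_le_mul_of_nonneg_left (leadingCoeff_le_mahlerMeasure W) (by positivity)
      _ = (V.map (Int.castRingHom ℂ)).mahlerMeasure := by
          rw [hW, mahlerMeasure_mul, hroots (X_sub_C_ne_zero _), mahlerMeasure_X_sub_C]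
      _ ≤ len := by
          refine (mahlerMeasure_le_sum_norm_coeff _).trans (le_of_eq ?_)
          rw [sum_def, support_map_of_injective V Int.cast_injective]
          exact sum_congr rfl fun j _ => by rw [coeff_map, eq_intCast, Complex.norm_intCast]
  have hfin : (∏ᶠ w : FinitePlace K, max (w x) 1) ^ t * ∏ᶠ w : FinitePlace K, w (a : K) ≤ 1 := by
    have hmax : (fun w : FinitePlace K => max (w x) 1).HasFiniteMulSupport := by
      rcases eq_or_ne x 0 with rfl | hx
      · simp [Function.HasFiniteMulSupport, Function.mulSupport]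
      · exact (FinitePlace.hasFiniteMulSupport hx).subset fun w hw e => hw (by simp [e])
    rw [finprod_pow hmax, ← finprod_mul_distrib
      (hmax.subset fun w hw e => hw (by simp only at e ⊢; rw [e, one_pow]))
      (FinitePlace.hasFiniteMulSupport haK)]
    refine (finprod_induction (fun r : ℝ => 0 ≤ r ∧ r ≤ 1) ⟨zero_le_one, le_rfl⟩
      (fun a b ha hb => ⟨mul_nonneg ha.1 hb.1, mul_le_one₀ ha.2 hb.1 hb.2⟩) fun w => ?_).2
    refine ⟨mul_nonneg (by positivity) (apply_nonneg w _), ?_⟩
    rcases le_total (w x) 1 with h1 | h1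
    · rw [max_eq_right h1, one_pow, one_mul]
      exact finitePlace_le_one w (isIntegral_intCast a)
    · rw [max_eq_left h1, mul_comm, ← map_pow, ← map_mul]
      exact finitePlace_le_one w hint
  have hprodinf : ∏ w : InfinitePlace K, w (a : K) ^ w.mult = |(a : ℝ)| ^ d := by
    rw [prod_congr rfl fun w _ => by rw [infinitePlace_intCast w a], prod_pow_eq_pow_sum,
      InfinitePlace.sum_mult_eq]
  have hpf : (|(a : ℝ)| ^ d) * ∏ᶠ w : FinitePlace K, w (a : K) = 1 := by
    rw [← hprodinf, prod_abs_eq_one haK]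
  have ha0 : 0 < |(a : ℝ)| ^ d :=
    pow_pos (abs_pos.2 (Int.cast_ne_zero.2 (leadingCoeff_ne_zero.2 hV))) d
  have key : Height.mulHeight₁ x ^ t ≤ len ^ d := by
    rw [NumberField.mulHeight₁_eq, mul_pow]
    calc (∏ w : InfinitePlace K, max (w x) 1 ^ w.mult) ^ t * (∏ᶠ w : FinitePlace K, max (w x) 1) ^ t
        ≤ (∏ w : InfinitePlace K, max (w x) 1 ^ w.mult) ^ t * |(a : ℝ)| ^ d := by
          refine mul_le_mul_of_nonneg_left ?_ (by positivity)
          refine le_of_mul_le_mul_right (a := ∏ᶠ w : FinitePlace K, w (a : K)) ?_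
            (pos_of_mul_pos_right (hpf ▸ one_pos) ha0.le)
          rwa [hpf]
      _ = ∏ w : InfinitePlace K, (|(a : ℝ)| * max (w x) 1 ^ t) ^ w.mult := by
          rw [← prod_pow, hd_def, ← InfinitePlace.sum_mult_eq (K := K), ← prod_pow_eq_pow_sum,
            ← prod_mul_distrib]
          exact prod_congr rfl fun w _ => by rw [mul_pow, mul_comm, ← pow_mul, ← pow_mul,
            mul_comm w.mult]
      _ ≤ ∏ w : InfinitePlace K, len ^ w.mult :=
          prod_le_prod (fun w _ => by positivity) fun w _ =>
            pow_le_pow_left₀ (by positivity) (hinf w) _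
      _ = len ^ d := by rw [prod_pow_eq_pow_sum, InfinitePlace.sum_mult_eq]
  rw [← Real.rpow_natCast, ← Real.rpow_mul hH.le, mul_comm, Real.rpow_mul hH.le,
    Real.rpow_natCast, one_div]
  refine (Real.rpow_le_rpow (by positivity) key (by positivity)).trans ?_
  rw [Real.pow_rpow_inv_natCast (sum_nonneg fun _ _ => abs_nonneg _) hd]

/-- A norm on a field containing `K` which restricts to a place of `K`. -/
def NormAtPlace {M : Type*} [NormedField M] (ι : K →+* M) : Prop :=
  (∃ w : InfinitePlace K, ∀ y, ‖ι y‖ = w y) ∨ ∃ w : FinitePlace K, ∀ y, ‖ι y‖ = w y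

theorem NormAtPlace.norm_intCast {M : Type*} [NormedField M] {ι : K →+* M} (h : NormAtPlace ι)
    (z : ℤ) : ‖(z : M)‖ ≤ |(z : ℝ)| := by
  rw [← map_intCast ι z]
  obtain ⟨w, hw⟩ | ⟨w, hw⟩ := h
  · rw [hw, infinitePlace_intCast]
  · rcases eq_or_ne z 0 with rfl | hz
    · simp
    rw [hw]
    exact (finitePlace_le_one w (isIntegral_intCast z)).trans
      (by exact_mod_cast Int.one_le_abs hz)

theorem normAtPlace_embedding (φ : K →+* ℂ) : NormAtPlace φ :=
  Or.inl ⟨InfinitePlace.mk φ, fun y => (InfinitePlace.apply φ y).symm⟩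

end FA.Roth

end
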