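import Fermat.Agent.Roth.Field.Siegel
import Mathlib.AlgebraicGeometry.EllipticCurve.NormalForms

/-!
# Shafarevich's theorem

Elliptic curves with good reduction outside a finite set `S` of primes have discriminants whose
valuations outside `S` are divisible by twelve. So after scaling the discriminant `γ` is one of
finitely many, and `(c₄, c₆)` is an integral point, outside finitely many primes, on
`Y ^ 2 = X ^ 3 - 1728 γ`, of which there are finitely many by Siegel's theorem.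
-/

set_option autoImplicit false

noncomputable section

namespace FA.Roth

open NumberField IsDedekindDomain WeierstrassCurve Polynomial

variable {K : Type*} [Field K] [NumberField K]

/-- A Weierstrass equation integral at `v` with unit discriminant. -/
def GoodAt (v : HeightOneSpectrum (𝓞 K)) (W : WeierstrassCurve K) : Prop :=
  ∃ C : VariableChange K, v.valuation K (C • W).a₁ ≤ 1 ∧ v.valuation K (C • W).a₂ ≤ 1 ∧
    v.valuation K (C • W).a₃ ≤ 1 ∧ v.valuation K (C • W).a₄ ≤ 1 ∧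
    v.valuation K (C • W).a₆ ≤ 1 ∧ v.valuation K (C • W).Δ = 1

theorem valuation_natCast_le (v : HeightOneSpectrum (𝓞 K)) (n : ℕ) :
    v.valuation K (n : K) ≤ 1 := by
  rw [← map_natCast (algebraMap (𝓞 K) K)]
  exact v.valuation_le_one _

/-- The invariants of an integral equation are integral. -/
theorem valuation_c_le {v : HeightOneSpectrum (𝓞 K)} {W : WeierstrassCurve K}
    (h1 : v.valuation K W.a₁ ≤ 1) (h2 : v.valuation K W.a₂ ≤ 1) (h3 : v.valuation K W.a₃ ≤ 1)
    (h4 : v.valuation K W.a₄ ≤ 1) (h6 : v.valuation K W.a₆ ≤ 1) :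
    v.valuation K W.c₄ ≤ 1 ∧ v.valuation K W.c₆ ≤ 1 := by
  let O := (v.valuation K).integer
  let W' : WeierstrassCurve O := ⟨⟨_, h1⟩, ⟨_, h2⟩, ⟨_, h3⟩, ⟨_, h4⟩, ⟨_, h6⟩⟩
  have e : W'.map O.subtype = W := rfl
  rw [← e, map_c₄, map_c₆]
  exact ⟨W'.c₄.2, W'.c₆.2⟩

/-- The short curve with given invariants. -/
def ofInvariants (p : K × K) : WeierstrassCurve K := ⟨0, 0, 0, -p.1 / 48, -p.2 / 864⟩

/-- A curve in short form is the curve of its invariants. -/
theorem eq_ofInvariants {W : WeierstrassCurve K} [W.IsShortNF] :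
    W = ofInvariants (W.c₄, W.c₆) := by
  ext
  · simp [ofInvariants]
  · simp [ofInvariants]
  · simp [ofInvariants]
  · show W.a₄ = -W.c₄ / 48
    rw [c₄_of_isShortNF]
    ring
  · show W.a₆ = -W.c₆ / 864
    rw [c₆_of_isShortNF]
    ring

/-- **Shafarevich's theorem.** -/
theorem exists_finite_good_reduction {S : Set (HeightOneSpectrum (𝓞 K))} (hS : S.Finite) :
    ∃ F : Set (WeierstrassCurve K), F.Finite ∧ ∀ W : WeierstrassCurve K, W.Δ ≠ 0 →
      (∀ v ∉ S, GoodAt v W) → ∃ C : VariableChange K, C • W ∈ F := by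
  classical
  obtain ⟨Γ, hΓ0, hΓ⟩ := exists_selmer_classes (K := K) (m := 12) (by norm_num) hS
  set T := S ∪ ⋃ γ ∈ (Γ : Set K), {v : HeightOneSpectrum (𝓞 K) | v.valuation K γ ≠ 1} with hTdef
  have hT : T.Finite := hS.union (Γ.finite_toSet.biUnion fun γ hγ =>
    finite_valuation_ne_one (hΓ0 γ hγ))
  refine ⟨⋃ γ ∈ (Γ : Set K), ofInvariants ''
    {p : K × K | p.1 ∈ T.integer K ∧ p.2 ^ 2 = (X ^ 3 - C (1728 * γ)).eval p.1},
    Γ.finite_toSet.biUnion fun γ hγ => Set.Finite.image _ ?_, fun W hΔ hgood => ?_⟩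
  · have hdeg : (X ^ 3 - C (1728 * γ)).natDegree = 3 := natDegree_X_pow_sub_C
    have hsep : (X ^ 3 - C (1728 * γ)).Separable :=
      separable_X_pow_sub_C (1728 * γ) (by norm_num) (mul_ne_zero (by norm_num) (hΓ0 γ hγ))
    exact finite_pow_eq_eval hT hsep le_rfl (by omega) (Or.inr hdeg.ge)
  obtain ⟨γ, hγ, ξ, hξ⟩ := hΓ W.Δ hΔ fun v hv => by
    obtain ⟨C, -, -, -, -, -, hC⟩ := hgood v hv
    refine ⟨v.valuation K (C.u : K), ?_⟩
    rw [variableChange_Δ, map_mul, map_pow, Units.val_inv_eq_inv_val, map_inv₀, inv_pow] at hC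
    exact (inv_mul_eq_one₀ (pow_ne_zero 12 ((Valuation.ne_zero_iff _).2 C.u.ne_zero))).1 hC |>.symm
  have hξ0 : ξ ≠ 0 := fun h => hΔ (by rw [hξ, h, zero_pow (by norm_num), mul_zero])
  have : Invertible (2 : K) := invertibleOfNonzero (by norm_num)
  have : Invertible (3 : K) := invertibleOfNonzero (by norm_num)
  set W₀ := W.toShortNF • W
  let D : VariableChange K := ⟨Units.mk0 (ξ * (W.toShortNF.u : K)⁻¹)
    (mul_ne_zero hξ0 (inv_ne_zero (Units.ne_zero _))), 0, 0, 0⟩
  have hshort : (D • W₀).IsShortNF := ⟨by simp [W₀, D, variableChange_a₁],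
    by simp [W₀, D, variableChange_a₂], by simp [W₀, D, variableChange_a₃]⟩
  have hu : (W.toShortNF.u : K) ≠ 0 := Units.ne_zero _
  have hu4 : (D • W₀).c₄ = W.c₄ / ξ ^ 4 := by
    simp only [W₀, variableChange_c₄, D, Units.val_inv_eq_inv_val, Units.val_mk0]
    field_simp
  have hu6 : (D • W₀).c₆ = W.c₆ / ξ ^ 6 := by
    simp only [W₀, variableChange_c₆, D, Units.val_inv_eq_inv_val, Units.val_mk0]
    field_simp
  refine ⟨D * W.toShortNF, Set.mem_biUnion (x := γ) hγ
    ⟨((D • W₀).c₄, (D • W₀).c₆), ⟨fun v hv => ?_, ?_⟩, ?_⟩⟩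
  · rw [hTdef, Set.mem_union, not_or] at hv
    obtain ⟨C, h1, h2, h3, h4, h6, hC⟩ := hgood v hv.1
    have hγ1 : v.valuation K γ = 1 :=
      not_not.1 fun h => hv.2 (Set.mem_biUnion (x := γ) hγ h)
    have hc := (valuation_c_le h1 h2 h3 h4 h6).1
    show v.valuation K (D • W₀).c₄ ≤ 1
    rw [variableChange_c₄, map_mul, map_pow, Units.val_inv_eq_inv_val, map_inv₀, inv_pow] at hc
    rw [variableChange_Δ, map_mul, map_pow, Units.val_inv_eq_inv_val, map_inv₀, inv_pow, hξ,
      map_mul, hγ1, one_mul, map_pow] at hC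
    have hCu : v.valuation K (C.u : K) = v.valuation K ξ :=
      (pow_left_inj₀ zero_le zero_le (by norm_num : (12 : ℕ) ≠ 0)).1
        ((inv_mul_eq_one₀ (pow_ne_zero 12 ((Valuation.ne_zero_iff _).2 C.u.ne_zero))).1 hC)
    rw [hu4, map_div₀, map_pow, div_eq_inv_mul, ← hCu]
    exact hc
  · show (D • W₀).c₆ ^ 2 = _
    rw [eval_sub, eval_pow, eval_X, eval_C, hu4, hu6]
    have h := W.c_relation
    rw [hξ] at h
    field_simp
    linear_combination h
  · rw [← eq_ofInvariants (W := D • W₀), mul_smul]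

end FA.Roth

end
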