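import Fermat.Agent.Roth.Field.Thue

/-!
# Siegel's theorem on `y ^ m = f x` in `S`-integers

Outside a finite set of primes the valuations of the `x - θ` are divisible by `m`. Over a field
containing the roots of `f` and `m`-th roots of the classes in `K(T, m)` every `x - θ` is an `m`-th
power `η ^ m`. Two of them differ by a constant, which is Thue's equation for `m ≥ 3`; for `m = 2`
three of them give an `S`-unit equation in the factors `η ± η'`.
-/

set_option autoImplicit false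

noncomputable section

namespace FA.Roth

open Finset NumberField IsDedekindDomain Polynomial

variable {K : Type*} [Field K] [NumberField K]

theorem finite_pow_sub_pow {S : Set (HeightOneSpectrum (𝓞 K))} (hS : S.Finite) {m : ℕ} (hm : 3 ≤ m)
    {δ : K} (hδ : δ ≠ 0) :
    {p : K × K | p.1 ∈ S.integer K ∧ p.2 ∈ S.integer K ∧ p.1 ^ m - p.2 ^ m = δ}.Finite := by
  classical
  have hdeg : (X ^ m - C (1 : K)).natDegree = m := natDegree_X_pow_sub_C
  have hsep : (X ^ m - C (1 : K)).Separable :=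
    separable_X_pow_sub_C (1 : K) (Nat.cast_ne_zero.2 (by omega)) one_ne_zero
  refine (finite_form_eq hS hsep (by rw [hdeg]; exact hm) hδ).subset
    fun p hp => ⟨hp.1, hp.2.1, ?_⟩
  rw [hdeg, ← hp.2.2]
  simp [coeff_X_pow, coeff_one, sub_mul, sum_sub_distrib, ite_mul, Finset.sum_ite_eq']

theorem finite_sq_system {S : Set (HeightOneSpectrum (𝓞 K))} (hS : S.Finite) {δ₂ δ₃ : K}
    (h2 : δ₂ ≠ 0) (h3 : δ₃ ≠ 0) (h23 : δ₂ ≠ δ₃) :
    {p : K × K × K | (p.1 ∈ S.integer K ∧ p.2.1 ∈ S.integer K ∧ p.2.2 ∈ S.integer K) ∧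
      p.1 ^ 2 - p.2.1 ^ 2 = δ₂ ∧ p.1 ^ 2 - p.2.2 ^ 2 = δ₃}.Finite := by
  classical
  set T := S ∪ {v | v.valuation K δ₂ ≠ 1} ∪ {v | v.valuation K δ₃ ≠ 1} ∪
    {v | v.valuation K (δ₃ - δ₂) ≠ 1} with hTdef
  have hT : T.Finite := ((hS.union (finite_valuation_ne_one h2)).union
    (finite_valuation_ne_one h3)).union (finite_valuation_ne_one (sub_ne_zero.2 h23.symm))
  set R := {r : K | ∃ x y z : T.unit K, (1 : K) * ((x : Kˣ) : K) + 1 * ((y : Kˣ) : K) =
    1 * ((z : Kˣ) : K) ∧ r = ((x : Kˣ) : K) / ((z : Kˣ) : K)}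
  have hR : R.Finite := finite_sunit_ratios hT one_ne_zero one_ne_zero one_ne_zero
  refine Set.Finite.of_finite_image (f := fun p : K × K × K => (p.1 - p.2.1, p.1 - p.2.2))
    ((hR.biUnion fun r _ => hR.biUnion fun r' _ =>
      (finite_eq_pow two_pos (δ₂ / (r * r'))).image fun t => (r * t, t)).subset ?_) ?_
  · rintro _ ⟨⟨η₁, η₂, η₃⟩, ⟨⟨i1, i2, i3⟩, e2, e3⟩, rfl⟩
    change η₁ ^ 2 - η₂ ^ 2 = δ₂ at e2
    change η₁ ^ 2 - η₃ ^ 2 = δ₃ at e3
    have key : ∀ x y δ : K, x ∈ S.integer K → y ∈ S.integer K → x * y = δ → δ ≠ 0 →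
        (∀ v ∉ T, v.valuation K δ = 1) → ∃ u : T.unit K, ((u : Kˣ) : K) = x := by
      intro x y δ hx hy hxy hδ hval
      refine exists_sunit (left_ne_zero_of_mul (hxy ▸ hδ)) fun v hv => ?_
      have hvS : v ∉ S := fun h => hv (Or.inl (Or.inl (Or.inl h)))
      refine le_antisymm (hx v hvS) ?_
      rw [← hval v hv, ← hxy, map_mul]
      exact mul_le_of_le_one_right' (hy v hvS)
    have hd2 : ∀ v ∉ T, v.valuation K δ₂ = 1 := fun v hv =>
      not_not.1 fun h => hv (Or.inl (Or.inl (Or.inr h)))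
    have hd3 : ∀ v ∉ T, v.valuation K δ₃ = 1 := fun v hv =>
      not_not.1 fun h => hv (Or.inl (Or.inr h))
    have hd23 : ∀ v ∉ T, v.valuation K (δ₃ - δ₂) = 1 := fun v hv =>
      not_not.1 fun h => hv (Or.inr h)
    obtain ⟨a, ha⟩ := key (η₁ - η₂) (η₁ + η₂) δ₂ (sub_mem i1 i2) (add_mem i1 i2)
      (by linear_combination e2) h2 hd2
    obtain ⟨a', ha'⟩ := key (η₁ + η₂) (η₁ - η₂) δ₂ (add_mem i1 i2) (sub_mem i1 i2)
      (by linear_combination e2) h2 hd2
    obtain ⟨b, hb⟩ := key (η₁ - η₃) (η₁ + η₃) δ₃ (sub_mem i1 i3) (add_mem i1 i3)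
      (by linear_combination e3) h3 hd3
    obtain ⟨c, hc⟩ := key (η₂ - η₃) (η₂ + η₃) (δ₃ - δ₂) (sub_mem i2 i3) (add_mem i2 i3)
      (by linear_combination e3 - e2) (sub_ne_zero.2 h23.symm) hd23
    obtain ⟨c', hc'⟩ := key (-(η₂ + η₃)) (-(η₂ - η₃)) (δ₃ - δ₂) (neg_mem (add_mem i2 i3))
      (neg_mem (sub_mem i2 i3)) (by linear_combination e3 - e2) (sub_ne_zero.2 h23.symm) hd23
    have hA : η₁ - η₂ ≠ 0 := ha ▸ Units.ne_zero _
    have hA' : η₁ + η₂ ≠ 0 := ha' ▸ Units.ne_zero _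
    have hB : η₁ - η₃ ≠ 0 := hb ▸ Units.ne_zero _
    refine Set.mem_biUnion (x := (η₁ - η₂) / (η₁ - η₃))
      ⟨a, c, b, by rw [ha, hc, hb]; ring, by rw [ha, hb]⟩
      (Set.mem_biUnion (x := (η₁ + η₂) / (η₁ - η₃))
        ⟨a', c', b, by rw [ha', hc', hb]; ring, by rw [ha', hb]⟩ ⟨η₁ - η₃, ?_, ?_⟩)
    · show _ ^ 2 = _
      rw [← e2, show η₁ ^ 2 - η₂ ^ 2 = (η₁ - η₂) * (η₁ + η₂) by ring]
      field_simp
    · show (_ / _ * _, _) = _
      rw [div_mul_cancel₀ _ hB]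
  · rintro ⟨η₁, η₂, η₃⟩ ⟨-, -, e3⟩ ⟨ζ₁, ζ₂, ζ₃⟩ ⟨-, -, f3⟩ h
    change η₁ ^ 2 - η₃ ^ 2 = δ₃ at e3
    change ζ₁ ^ 2 - ζ₃ ^ 2 = δ₃ at f3
    simp only [Prod.mk.injEq] at h
    have hb : (η₁ - η₃) * (η₁ + η₃) = δ₃ := by linear_combination e3
    have hsum : η₁ + η₃ = ζ₁ + ζ₃ := mul_left_cancel₀ (left_ne_zero_of_mul (hb ▸ h3))
      (by rw [hb, h.2, ← f3]; ring)
    have e1 : η₁ = ζ₁ := mul_left_cancel₀ (two_ne_zero (α := K))
      (by linear_combination h.2 + hsum)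
    refine Prod.ext e1 (Prod.ext ?_ ?_)
    · show η₂ = ζ₂
      linear_combination e1 - h.1
    · show η₃ = ζ₃
      linear_combination e1 - h.2

/-- The case of a product of linear factors. -/
theorem finite_prod_eq_pow {S : Set (HeightOneSpectrum (𝓞 K))} (hS : S.Finite) {ι : Type*}
    [Fintype ι] {θ : ι → K} (hθ : Function.Injective θ) {a : K} (ha : a ≠ 0) {m : ℕ}
    (hm : 2 ≤ m) (hι : 2 ≤ Fintype.card ι) (h : 3 ≤ m ∨ 3 ≤ Fintype.card ι) :
    {x : K | x ∈ S.integer K ∧ ∃ y, ∏ i, (x - θ i) = a * y ^ m}.Finite := by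
  classical
  have hm0 : 0 < m := by omega
  set T := S ∪ {v : HeightOneSpectrum (𝓞 K) | v.valuation K a ≠ 1} ∪
    (⋃ i, HeightOneSpectrum.Support (𝓞 K) (θ i)) ∪
      ⋃ p : {p : ι × ι // p.1 ≠ p.2}, {v | v.valuation K (θ p.1.1 - θ p.1.2) ≠ 1} with hTdef
  have hT : T.Finite := ((hS.union (finite_valuation_ne_one ha)).union
    (Set.finite_iUnion fun i => HeightOneSpectrum.Support.finite (𝓞 K) (θ i))).union
      (Set.finite_iUnion fun p => finite_valuation_ne_one (sub_ne_zero.2 (hθ.ne p.2)))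
  obtain ⟨Γ, -, hΓ⟩ := exists_selmer_classes (K := K) hm0 hT
  set F : K[X] := ∏ γ ∈ Γ, (X ^ m - C γ) with hF
  let L := F.SplittingField
  have : NumberField L := NumberField.of_module_finite K L
  set φ := algebraMap K L
  have hroot : ∀ γ ∈ Γ, ∃ ρ : L, ρ ^ m = φ γ := fun γ hγ => by
    have hsplit : ((X ^ m - C γ).map φ).Splits := by
      refine (SplittingField.splits F).of_dvd (Polynomial.map_ne_zero ?_)
        (Polynomial.map_dvd _ (dvd_prod_of_mem (fun γ => X ^ m - C γ) hγ))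
      exact prod_ne_zero_iff.2 fun γ _ => (monic_X_pow_sub_C γ hm0.ne').ne_zero
    obtain ⟨ρ, hρ⟩ := hsplit.exists_eval_eq_zero (by
      rw [degree_map, degree_X_pow_sub_C hm0]
      exact_mod_cast hm0.ne')
    exact ⟨ρ, sub_eq_zero.1 (by simpa using hρ)⟩
  set T' := (overPrimes T : Set (HeightOneSpectrum (𝓞 L))) with hT'def
  have hT' : T'.Finite := overPrimes_finite hT
  have hpow : ∀ x : K, x ∈ S.integer K → (∃ y, ∏ i, (x - θ i) = a * y ^ m) →
      ∀ i, ∃ η ∈ T'.integer L, η ^ m = φ (x - θ i) := by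
    rintro x hx ⟨y, hy⟩ i
    have hle : ∀ v ∉ T, ∀ j, v.valuation K (x - θ j) ≤ 1 := fun v hv j =>
      (v.valuation K).map_sub_le (hx v fun h => hv (Or.inl (Or.inl (Or.inl h))))
        (not_lt.1 fun h => hv (Or.inl (Or.inr (Set.mem_iUnion.2 ⟨j, h⟩))))
    obtain ⟨η, hη⟩ : ∃ η : L, η ^ m = φ (x - θ i) := by
      by_cases hz : x - θ i = 0
      · exact ⟨0, by rw [hz, map_zero, zero_pow hm0.ne']⟩
      obtain ⟨γ, hγ, ξ, hξ⟩ := hΓ (x - θ i) hz fun v hv => by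
        rcases eq_or_lt_of_le (hle v hv i) with h1 | h1
        · exact ⟨1, by rw [one_pow, h1]⟩
        refine ⟨v.valuation K y, ?_⟩
        have hothers : ∀ j ∈ univ.erase i, v.valuation K (x - θ j) = 1 := fun j hj => by
          have hd : v.valuation K (θ i - θ j) = 1 := not_not.1 fun h =>
            hv (Or.inr (Set.mem_iUnion.2 ⟨⟨(i, j), (ne_of_mem_erase hj).symm⟩, h⟩))
          rw [show x - θ j = (x - θ i) + (θ i - θ j) by ring,
            Valuation.map_add_eq_of_lt_right _ (hd ▸ h1), hd]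
        have ha1 : v.valuation K a = 1 := not_not.1 fun h => hv (Or.inl (Or.inl (Or.inr h)))
        have h2 := congrArg (v.valuation K) hy
        rwa [← mul_prod_erase univ (fun j => x - θ j) (mem_univ i), map_mul, map_prod,
          prod_eq_one hothers, mul_one, map_mul, ha1, one_mul, map_pow] at h2
      obtain ⟨ρ, hρ⟩ := hroot γ hγ
      exact ⟨ρ * φ ξ, by rw [mul_pow, hρ, hξ, map_mul, map_pow]⟩
    refine ⟨η, fun w hw => ?_, hη⟩
    have h1 := valuation_algebraMap_le_one hw (fun v hv => hle v hv i)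
    rw [← hη, map_pow] at h1
    exact (pow_le_one_iff hm0.ne').1 h1
  have hne : ∀ {i j : ι}, i ≠ j → φ (θ j - θ i) ≠ 0 := fun h =>
    (map_ne_zero φ).2 (sub_ne_zero.2 (hθ.ne h.symm))
  by_cases hm3 : 3 ≤ m
  · obtain ⟨i, j, hij⟩ := Fintype.one_lt_card_iff.1 (show 1 < Fintype.card ι by omega)
    have hfin := finite_pow_sub_pow hT' hm3 (hne hij)
    refine ((hfin.image fun p => p.1 ^ m + φ (θ i)).preimage (f := φ) φ.injective.injOn).subset
      fun x hx => ?_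
    obtain ⟨η, hηT, hη⟩ := hpow x hx.1 hx.2 i
    obtain ⟨η', hη'T, hη'⟩ := hpow x hx.1 hx.2 j
    refine ⟨(η, η'), ⟨hηT, hη'T, ?_⟩, ?_⟩
    · show η ^ m - η' ^ m = _
      rw [hη, hη', ← map_sub]
      congr 1
      ring
    · show η ^ m + φ (θ i) = φ x
      rw [hη, ← map_add, sub_add_cancel]
  · obtain ⟨i, j, k, hij, hik, hjk⟩ :=
      Fintype.two_lt_card_iff.1 (show 2 < Fintype.card ι by omega)
    obtain rfl : m = 2 := by omega
    have hfin := finite_sq_system hT' (hne hij) (hne hik)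
      (φ.injective.ne fun h => hθ.ne hjk (sub_left_inj.1 h))
    refine ((hfin.image fun p => p.1 ^ 2 + φ (θ i)).preimage (f := φ) φ.injective.injOn).subset
      fun x hx => ?_
    obtain ⟨η₁, t₁, h₁⟩ := hpow x hx.1 hx.2 i
    obtain ⟨η₂, t₂, h₂⟩ := hpow x hx.1 hx.2 j
    obtain ⟨η₃, t₃, h₃⟩ := hpow x hx.1 hx.2 k
    refine ⟨(η₁, η₂, η₃), ⟨⟨t₁, t₂, t₃⟩, ?_, ?_⟩, ?_⟩
    · show η₁ ^ 2 - η₂ ^ 2 = _
      rw [h₁, h₂, ← map_sub]
      congr 1
      ring
    · show η₁ ^ 2 - η₃ ^ 2 = _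
      rw [h₁, h₃, ← map_sub]
      congr 1
      ring
    · show η₁ ^ 2 + φ (θ i) = φ x
      rw [h₁, ← map_add, sub_add_cancel]

/-- **Siegel's theorem** on `y ^ m = f x` in `S`-integers. -/
theorem finite_pow_eq_eval {S : Set (HeightOneSpectrum (𝓞 K))} (hS : S.Finite) {f : K[X]}
    (hsep : f.Separable) {m : ℕ} (hm : 2 ≤ m) (hdeg : 2 ≤ f.natDegree)
    (h : 3 ≤ m ∨ 3 ≤ f.natDegree) :
    {p : K × K | p.1 ∈ S.integer K ∧ p.2 ^ m = f.eval p.1}.Finite := by
  classical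
  let L := f.SplittingField
  have : NumberField L := NumberField.of_module_finite K L
  set φ := algebraMap K L
  set g := f.map φ with hg
  have hsep' : g.Separable := hsep.map
  have hgn : g.natDegree = f.natDegree := natDegree_map φ
  have hlc : g.leadingCoeff ≠ 0 := leadingCoeff_ne_zero.2 hsep'.ne_zero
  set R := g.roots.toFinset with hR
  have hcard : Fintype.card R = f.natDegree := by
    rw [Fintype.card_coe, Multiset.toFinset_card_of_nodup (nodup_roots hsep'), ← hgn]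
    exact (SplittingField.splits f).natDegree_eq_card_roots.symm
  have hfin := finite_prod_eq_pow (overPrimes_finite (L := L) hS) (θ := fun ρ : R => (ρ : L))
    Subtype.coe_injective (a := g.leadingCoeff⁻¹) (inv_ne_zero hlc) hm (hcard ▸ hdeg) (hcard ▸ h)
  have hX : {x : K | x ∈ S.integer K ∧ ∃ y, y ^ m = f.eval x}.Finite := by
    refine (hfin.preimage (f := φ) φ.injective.injOn).subset ?_
    rintro x ⟨hx, y, hy⟩
    refine ⟨fun w hw => valuation_algebraMap_le_one hw hx, φ y, ?_⟩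
    rw [prod_coe_sort R fun ρ => φ x - ρ, ← map_pow, hy, eq_inv_mul_iff_mul_eq₀ hlc,
      ← eval_map_apply, ← hg, eval_eq_sum_range]
    simpa using (sum_homogeneous_eq hsep' (SplittingField.splits f) (φ x) 1).symm
  refine (hX.biUnion fun x _ => (finite_eq_pow (show 0 < m by omega) (f.eval x)).image
    fun y => (x, y)).subset ?_
  rintro ⟨x, y⟩ ⟨hx, hp⟩
  exact Set.mem_biUnion (x := x) ⟨hx, y, hp⟩ ⟨y, hp, rfl⟩

end FA.Roth

end
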