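import Fermat.Agent.Roth.Field.SIntegral
import Mathlib.FieldTheory.Perfect
import Mathlib.FieldTheory.SplittingField.Construction

/-!
# The Thue–Mahler equation over number fields

A product of binary linear forms with three different factors takes a nonzero value at only
finitely many pairs of `S`-integers of a number field: the factors are units outside a finite
set of primes and three of them satisfy a linear relation, which is an `S`-unit equation.
-/

set_option autoImplicit false

noncomputable section

namespace FA.Roth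

open Finset NumberField IsDedekindDomain

variable {K : Type*} [Field K] [NumberField K]

omit [NumberField K] in
theorem finite_eq_pow {n : ℕ} (hn : 0 < n) (a : K) : {t : K | t ^ n = a}.Finite := by
  refine (Polynomial.finite_setOfPred_isRoot
    (Polynomial.monic_X_pow_sub_C a hn.ne').ne_zero).subset fun t ht => ?_
  show Polynomial.IsRoot _ t
  simp [Set.mem_ofPred_eq ▸ ht]

/-- **Thue's equation** for a product of linear forms with three different factors. -/
theorem finite_prod_linear_eq {S : Set (HeightOneSpectrum (𝓞 K))} (hS : S.Finite) {ι : Type*}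
    [Fintype ι] (θ : ι → K) {i j k : ι} (hij : θ i ≠ θ j) (hjk : θ j ≠ θ k) (hki : θ k ≠ θ i)
    {c : K} (hc : c ≠ 0) :
    {p : K × K | p.1 ∈ S.integer K ∧ p.2 ∈ S.integer K ∧
      ∏ m, (p.1 - θ m * p.2) = c}.Finite := by
  classical
  set T := S ∪ {v : HeightOneSpectrum (𝓞 K) | v.valuation K c ≠ 1} ∪
    ⋃ m, HeightOneSpectrum.Support (𝓞 K) (θ m) with hTdef
  have hT : T.Finite := (hS.union (finite_valuation_ne_one hc)).union
    (Set.finite_iUnion fun m => HeightOneSpectrum.Support.finite (𝓞 K) (θ m))
  set R := {r : K | ∃ x y z : T.unit K, (θ j - θ k) * ((x : Kˣ) : K) +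
    (θ k - θ i) * ((y : Kˣ) : K) = (θ j - θ i) * ((z : Kˣ) : K) ∧
      r = ((x : Kˣ) : K) / ((z : Kˣ) : K)}
  have hR : R.Finite := finite_sunit_ratios hT (sub_ne_zero.2 hjk) (sub_ne_zero.2 hki)
    (sub_ne_zero.2 hij.symm)
  set N := Fintype.card ι
  have hN : 0 < N := Fintype.card_pos_iff.2 ⟨i⟩
  let B : K → K := fun r => ∏ m, ((θ m - θ k) * r + (θ i - θ m))
  have hinj : Function.Injective fun p : K × K => (p.1 - θ i * p.2, p.1 - θ k * p.2) :=
    fun p q h => by
      simp only [Prod.mk.injEq] at h
      have h2 : p.2 = q.2 :=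
        mul_left_cancel₀ (sub_ne_zero.2 hki) (by linear_combination h.1 - h.2)
      exact Prod.ext (by linear_combination h.1 + θ i * h2) h2
  refine Set.Finite.of_finite_image ((hR.biUnion fun r _ =>
    (finite_eq_pow hN (c * (θ i - θ k) ^ N / B r)).image fun t => (r * t, t)).subset ?_) hinj.injOn
  rintro _ ⟨⟨x, y⟩, ⟨hx, hy, hxy⟩, rfl⟩
  change ∏ m, (x - θ m * y) = c at hxy
  have hl0 : ∀ m, x - θ m * y ≠ 0 := fun m h =>
    hc (hxy ▸ prod_eq_zero (mem_univ m) h)
  have hunit : ∀ m, ∃ u : T.unit K, ((u : Kˣ) : K) = x - θ m * y := fun m =>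
    exists_sunit (hl0 m) fun v hv => by
      simp only [hTdef, Set.mem_union, Set.mem_iUnion, not_or, not_exists, Set.mem_ofPred_eq,
        not_not] at hv
      refine valuation_eq_one_of_prod (f := fun m => x - θ m * y) (fun n _ => ?_)
        (hxy ▸ hv.1.2) (mem_univ m)
      refine (v.valuation K).map_sub_le (hx v hv.1.1) ?_
      rw [map_mul]
      exact mul_le_one' (not_lt.1 (hv.2 n)) (hy v hv.1.1)
  obtain ⟨u, hu⟩ := hunit i
  obtain ⟨w, hw⟩ := hunit j
  obtain ⟨z, hz⟩ := hunit k
  set r := (x - θ i * y) / (x - θ k * y) with hr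
  refine Set.mem_biUnion (x := r) ?_ ⟨x - θ k * y, ?_, ?_⟩
  · exact ⟨u, w, z, by rw [hu, hw, hz]; ring, by rw [hr, hu, hz]⟩
  · show _ ^ N = _
    have hB : B r * (x - θ k * y) ^ N = c * (θ i - θ k) ^ N := by
      rw [← hxy, show N = (univ : Finset ι).card from rfl, ← prod_const, ← prod_const,
        ← prod_mul_distrib, ← prod_mul_distrib]
      refine prod_congr rfl fun m _ => ?_
      have := hl0 k
      rw [hr]
      field_simp
      ring
    have hB0 : B r ≠ 0 := fun h0 => by
      rw [h0, zero_mul] at hB
      exact mul_ne_zero hc (pow_ne_zero N (sub_ne_zero.2 hki.symm)) hB.symm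
    rw [← hB, mul_div_cancel_left₀ _ hB0]
  · show (r * _, _) = _
    rw [hr, div_mul_cancel₀ _ (hl0 k)]

open Polynomial in
omit [NumberField K] in
/-- The homogenised polynomial over a field in which it splits. -/
theorem sum_homogeneous_eq {L : Type*} [Field L] [DecidableEq L] {g : L[X]} (hsep : g.Separable)
    (hsplit : g.Splits) (x y : L) :
    ∑ i ∈ Finset.range (g.natDegree + 1), g.coeff i * x ^ i * y ^ (g.natDegree - i) =
      g.leadingCoeff * ∏ ρ ∈ g.roots.toFinset, (x - ρ * y) := by
  set n := g.natDegree with hn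
  have hcard : g.roots.toFinset.card = n := by
    rw [Multiset.toFinset_card_of_nodup (nodup_roots hsep)]
    exact hsplit.natDegree_eq_card_roots.symm
  have heval : ∀ t, g.eval t = g.leadingCoeff * ∏ ρ ∈ g.roots.toFinset, (t - ρ) := fun t => by
    conv_lhs => rw [hsplit.eq_prod_roots]
    rw [eval_mul, eval_C, eval_multiset_prod, Multiset.map_map, Finset.prod_eq_multiset_prod,
      Multiset.toFinset_val, (nodup_roots hsep).dedup]
    simp
  rcases eq_or_ne y 0 with h0 | h0
  · rw [h0, sum_range_succ, sum_eq_zero fun i hi => by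
      rw [Finset.mem_range] at hi
      rw [zero_pow (by omega), mul_zero]]
    simp [prod_const, hcard, leadingCoeff, ← hn]
  · have h1 := heval (x / y)
    rw [eval_eq_sum_range, ← hn] at h1
    calc ∑ i ∈ Finset.range (n + 1), g.coeff i * x ^ i * y ^ (n - i)
        = y ^ n * ∑ i ∈ Finset.range (n + 1), g.coeff i * (x / y) ^ i := by
          rw [mul_sum]
          refine sum_congr rfl fun i hi => ?_
          rw [Finset.mem_range] at hi
          rw [div_pow, ← pow_sub_mul_pow y (show i ≤ n by omega), mul_assoc (y ^ (n - i)),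
            mul_left_comm (y ^ i), mul_div_cancel₀ _ (pow_ne_zero i h0)]
          ring
      _ = _ := by
          rw [h1, ← hcard, mul_left_comm, ← prod_const, ← prod_mul_distrib]
          congr 1
          refine prod_congr rfl fun ρ _ => ?_
          rw [mul_sub, mul_div_cancel₀ _ h0, mul_comm ρ]

open Polynomial in
/-- **The Thue–Mahler equation over number fields.** -/
theorem finite_form_eq {S : Set (HeightOneSpectrum (𝓞 K))} (hS : S.Finite) {f : K[X]}
    (hsep : f.Separable) (hdeg : 3 ≤ f.natDegree) {c : K} (hc : c ≠ 0) :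
    {p : K × K | p.1 ∈ S.integer K ∧ p.2 ∈ S.integer K ∧
      ∑ i ∈ Finset.range (f.natDegree + 1),
        f.coeff i * p.1 ^ i * p.2 ^ (f.natDegree - i) = c}.Finite := by
  classical
  let L := f.SplittingField
  have : NumberField L := NumberField.of_module_finite K L
  set φ := algebraMap K L
  set g := f.map φ with hg
  have hsep' : g.Separable := hsep.map
  have hgn : g.natDegree = f.natDegree := natDegree_map φ
  have hlc : g.leadingCoeff ≠ 0 := leadingCoeff_ne_zero.2 hsep'.ne_zero
  set R := g.roots.toFinset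
  have hcard : R.card = f.natDegree := by
    rw [Multiset.toFinset_card_of_nodup (nodup_roots hsep'), ← hgn]
    exact (SplittingField.splits f).natDegree_eq_card_roots.symm
  obtain ⟨i, j, k, hij, hik, hjk⟩ : ∃ i j k : R, i ≠ j ∧ i ≠ k ∧ j ≠ k :=
    Fintype.two_lt_card_iff.1 (by rw [Fintype.card_coe, hcard]; omega)
  have hfin := finite_prod_linear_eq (overPrimes_finite (L := L) hS) (fun ρ : R => (ρ : L))
    (Subtype.coe_injective.ne hij) (Subtype.coe_injective.ne hjk)
    (Subtype.coe_injective.ne hik.symm) (c := φ c / g.leadingCoeff)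
    (div_ne_zero ((map_ne_zero φ).2 hc) hlc)
  refine (hfin.preimage (f := fun p : K × K => (φ p.1, φ p.2)) fun p _ q _ h => ?_).subset
    fun p hp => ?_
  · simp only [Prod.mk.injEq] at h
    exact Prod.ext (φ.injective h.1) (φ.injective h.2)
  refine ⟨fun w hw => valuation_algebraMap_le_one hw hp.1,
    fun w hw => valuation_algebraMap_le_one hw hp.2.1, ?_⟩
  show ∏ ρ : R, (φ p.1 - ρ * φ p.2) = φ c / g.leadingCoeff
  rw [prod_coe_sort R fun ρ => φ p.1 - ρ * φ p.2, eq_div_iff hlc, mul_comm,
    ← sum_homogeneous_eq hsep' (SplittingField.splits f), hgn, ← hp.2.2, map_sum]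
  exact sum_congr rfl fun n _ => by simp [hg, φ]

end FA.Roth

end
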